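import Fermat.Agent.ECFrob.Reduction
import Fermat.Prelude.Def_EllipticCurve_FrobeniusTrace
import Fermat.Prelude.Def_FLTPrelim_Modularity
import Fermat.Prelude.Def_FLTPrelim_Ramification

/-!
# Trace and determinant of Frobenius on torsion of an elliptic curve at a good prime

For an integral Weierstrass model `W`, primes `l ≠ p` with `l ∤ Δ`, a valuation subring `A` of `ℚ̄`
over `l` and a Frobenius element `σ` at `A`: on `E[p]` the trace of `σ` is `a_l mod p`, its
determinant is `l mod p`, and `σ² - a_l σ + l = 0`. Also the Hasse bound.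
-/

set_option autoImplicit false

noncomputable section

open WeierstrassCurve WeierstrassCurve.Affine.Point
open scoped WeierstrassCurve.Affine

namespace Fermat.Agent.ECFrob

local notation "Qb" => AlgebraicClosure ℚ

/-- `aFrob` of the reduction is `a_l`. -/
lemma aFrob_reductionMod (W : WeierstrassCurve ℤ) (l : ℕ) [Fact l.Prime] :
    aFrob (W.reductionMod l) = W.apOfModel l := rfl

/-- Hasse bound: `a_l² ≤ 4 l`. -/
theorem apOfModel_sq_le (W : WeierstrassCurve ℤ) {l : ℕ} (hl : l.Prime)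
    (hgood : W.IsGoodPrimeFor l) : (W.apOfModel l) ^ 2 ≤ 4 * (l : ℤ) := by
  have : Fact l.Prime := ⟨hl⟩
  have := isElliptic_reductionMod W hgood
  have h := aFrob_sq_le (W.reductionMod l)
  rwa [aFrob_reductionMod, Nat.card_zmod] at h

section

variable (W : WeierstrassCurve ℤ) {l : ℕ} [Fact l.Prime] (A : ValuationSubring Qb)

local notation "WQ" => W.map (Int.castRingHom ℚ)
local notation "κ" => IsLocalRing.ResidueField A

/-- Reduction on `n`-torsion. -/
def redTorsion [Algebra (ZMod l) κ] (hV : ECLocal.GoodAt A (WQ⁄Qb)) (n : ℕ) :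
    Submodule.torsionBy ℤ (WQ⁄Qb).Point n →ₗ[ZMod n]
      Submodule.torsionBy ℤ ((W.reductionMod l)⁄κ).Point n :=
  AddMonoidHom.toZModLinearMap n
    { toFun := fun P => ⟨redHom (l := l) W A hV P.1, by
        have := (Submodule.mem_torsionBy_iff _ _).mp P.2
        rw [Submodule.mem_torsionBy_iff, ← map_zsmul, this, _root_.map_zero]⟩
      map_zero' := Subtype.ext (_root_.map_zero (redHom (l := l) W A hV))
      map_add' := fun P Q => Subtype.ext (map_add (redHom (l := l) W A hV) P.1 Q.1) }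

lemma redTorsion_injective [Algebra (ZMod l) κ] (hV : ECLocal.GoodAt A (WQ⁄Qb))
    (hA : A.LiesOverPrime l) {n : ℕ} (hn : ¬ l ∣ n) :
    Function.Injective (redTorsion (l := l) W A hV n) := by
  rw [injective_iff_map_eq_zero]
  intro P hP
  apply Subtype.ext
  refine redHom_injective_of_torsion W A hV hA hn ?_ (congr_arg Subtype.val hP)
  rw [← natCast_zsmul]
  exact (Submodule.mem_torsionBy_iff _ _).mp P.2

lemma redTorsion_smul [Algebra (ZMod l) κ] (hV : ECLocal.GoodAt A (WQ⁄Qb)) {n : ℕ}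
    {σ : Qb ≃ₐ[ℚ] Qb} (hσ : A.IsFrobeniusAt σ l)
    (x : Submodule.torsionBy ℤ (WQ⁄Qb).Point n) :
    redTorsion (l := l) W A hV n (σ • x) =
      frobTorsion (W.reductionMod l) n (redTorsion (l := l) W A hV n x) :=
  Subtype.ext (redHom_smul W A hV hσ x.1)

/-- Trace and determinant together. -/
theorem galoisTrace_det_eq {p : ℕ} (hp : p.Prime) (hlp : l ≠ p) (hgood : W.IsGoodPrimeFor l)
    (hA : A.LiesOverPrime l) (σ : Qb ≃ₐ[ℚ] Qb) (hσ : A.IsFrobeniusAt σ l) :
    galoisTrace (K := Qb) ℚ (W.map (Int.castRingHom ℚ)) p σ = (W.apOfModel l : ZMod p) ∧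
      LinearMap.det (galoisRepModuleEnd (K := Qb) ℚ (W.map (Int.castRingHom ℚ)) p σ)
        = (l : ZMod p) := by
  have hl : l.Prime := Fact.out
  have : Fact p.Prime := ⟨hp⟩
  have := isElliptic_reductionMod W hgood
  have := Galois.place_charP_residueField hA hl
  let := residueAlgebra A hA
  have := Galois.place_residueField_isAlgClosed A
  have hV := ECLocal.goodAt_intModel W hl hgood A hA
  have hndvd : ¬ l ∣ p := fun h => hlp ((Nat.prime_dvd_prime_iff_eq hl hp).mp h)
  have hpκ : (p : κ) ≠ 0 := fun h => hndvd ((CharP.cast_eq_zero_iff κ l p).mp h)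
  have hΔQ : (WQ).Δ ≠ 0 := by
    rw [WeierstrassCurve.map_Δ, eq_intCast, Int.cast_ne_zero]
    exact fun h => hgood (h ▸ dvd_zero _)
  have hΔκ : algebraMap (ZMod l) κ (W.reductionMod l).Δ ≠ 0 :=
    (_root_.map_ne_zero _).mpr (W.reductionMod l).isUnit_Δ.ne_zero
  have hcard1 := ECTorsion.natCard_torsionBy_qbar (WQ) hΔQ (n := p) hp.ne_zero
  have hcard2 := ECTorsion.natCard_torsionBy_baseChange (W := W.reductionMod l) (K := κ) hΔκ hpκ
  have : Finite (Submodule.torsionBy ℤ ((W.reductionMod l)⁄κ).Point p) :=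
    ECTorsion.finite_torsionBy_baseChange hΔκ hpκ
  have hbij : Function.Bijective (redTorsion (l := l) W A hV p) :=
    (redTorsion_injective W A hV hA hndvd).bijective_of_nat_card_le (by rw [hcard1, hcard2])
  let e := LinearEquiv.ofBijective _ hbij
  have hconj : galoisRepModuleEnd (K := Qb) ℚ (WQ) p σ =
      e.symm.conj (frobTorsion (W.reductionMod l) p) := by
    ext1 x
    apply e.injective
    rw [LinearEquiv.conj_apply_apply, LinearEquiv.apply_symm_apply]
    exact redTorsion_smul W A hV hσ x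
  obtain ⟨ht, hd⟩ := trace_det_frobTorsion (W.reductionMod l) (Ω := κ) (p := p) hpκ
  rw [aFrob_reductionMod] at ht
  rw [Nat.card_zmod] at hd
  constructor
  · rw [galoisTrace_def, hconj, LinearMap.trace_conj']
    exact ht
  · rw [hconj, LinearEquiv.conj_apply, LinearMap.comp_assoc, LinearMap.det_conj]
    exact hd

end

/-- The trace of Frobenius on `E[p]` is `a_l` modulo `p`. -/
theorem galoisTrace_eq_apOfModel (W : WeierstrassCurve ℤ) {l p : ℕ} (hl : l.Prime) (hp : p.Prime)
    (hlp : l ≠ p) (hgood : W.IsGoodPrimeFor l) (A : ValuationSubring Qb)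
    (hA : A.LiesOverPrime l) (σ : Qb ≃ₐ[ℚ] Qb) (hσ : A.IsFrobeniusAt σ l) :
    galoisTrace (K := Qb) ℚ (W.map (Int.castRingHom ℚ)) p σ = (W.apOfModel l : ZMod p) :=
  haveI : Fact l.Prime := ⟨hl⟩
  (galoisTrace_det_eq W A hp hlp hgood hA σ hσ).1

/-- The determinant of Frobenius on `E[p]` is `l` modulo `p`. -/
theorem galoisDet_eq_natCast (W : WeierstrassCurve ℤ) {l p : ℕ} (hl : l.Prime) (hp : p.Prime)
    (hlp : l ≠ p) (hgood : W.IsGoodPrimeFor l) (A : ValuationSubring Qb)
    (hA : A.LiesOverPrime l) (σ : Qb ≃ₐ[ℚ] Qb) (hσ : A.IsFrobeniusAt σ l) :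
    LinearMap.det (galoisRepModuleEnd (K := Qb) ℚ (W.map (Int.castRingHom ℚ)) p σ)
      = (l : ZMod p) :=
  haveI : Fact l.Prime := ⟨hl⟩
  (galoisTrace_det_eq W A hp hlp hgood hA σ hσ).2

/-- The characteristic equation of Frobenius on `E[n]`, for every `n` prime to `l`. -/
theorem smul_smul_sub_apOfModel_smul_add (W : WeierstrassCurve ℤ) {l n : ℕ} (hl : l.Prime)
    (hln : ¬ l ∣ n) (hgood : W.IsGoodPrimeFor l) (A : ValuationSubring Qb)
    (hA : A.LiesOverPrime l) (σ : Qb ≃ₐ[ℚ] Qb) (hσ : A.IsFrobeniusAt σ l)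
    (x : Submodule.torsionBy ℤ ((W.map (Int.castRingHom ℚ))⁄Qb).Point n) :
    σ • σ • x - (W.apOfModel l) • (σ • x) + (l : ℤ) • x = 0 := by
  have : Fact l.Prime := ⟨hl⟩
  have := isElliptic_reductionMod W hgood
  let := residueAlgebra A hA
  have hV := ECLocal.goodAt_intModel W hl hgood A hA
  apply redTorsion_injective (l := l) W A hV hA hln
  rw [_root_.map_zero, map_add, map_sub, map_zsmul, map_zsmul, redTorsion_smul W A hV hσ,
    redTorsion_smul W A hV hσ]
  apply Subtype.ext
  have := frobPt_relation (W.reductionMod l) (redTorsion (l := l) W A hV n x).1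
  rw [aFrob_reductionMod, Nat.card_zmod] at this
  exact this

end Fermat.Agent.ECFrob
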