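import Fermat.Agent.ECFrob.Frob
import Mathlib.FieldTheory.IsAlgClosed.AlgebraicClosure

/-!
# `deg (1 - Frobenius) = #E(k)`

Over a finite field `k` with `q` elements, the `x`-coordinate of `Frob G - G` (`G` the generic
point) is a rational function of degree `#E(k)`.
-/

set_option autoImplicit false

noncomputable section

open Polynomial WeierstrassCurve
open scoped WeierstrassCurve.Affine

attribute [-simp] Nat.card_eq_fintype_card AdjoinRoot.algebraMap_eq

namespace Fermat.Agent.ECFrob

variable {k : Type*} [Field k] [Finite k] (W : WeierstrassCurve k)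

local notation "ι" => algebraMap (Polynomial k) (RatFunc k)
local notation "jK" => algebraMap (RatFunc k) (FnField W)
local notation "qk" => Nat.card k
local notation "CR" => WeierstrassCurve.Affine.CoordinateRing W

/-- The coordinate ring inside the function field. -/
def toFn : CR →+* FnField W :=
  AdjoinRoot.lift ((algebraMap (RatFunc k) (FnField W)).comp
      (algebraMap (Polynomial k) (RatFunc k))) (genY W) (by
    rw [← Polynomial.eval₂_map]
    exact AdjoinRoot.eval₂_root (fnPoly W))

omit [Finite k] in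
lemma toFn_algebraMap (p : k[X]) : toFn W (algebraMap k[X] CR p) = jK (ι p) := by
  simp [toFn, AdjoinRoot.algebraMap_eq]

omit [Finite k] in
lemma toFn_root : toFn W (AdjoinRoot.root _) = genY W := by
  simp [toFn]

omit [Finite k] in
/-- An element of the coordinate ring lying in `k(X)` is a polynomial in `X`. -/
lemma exists_poly_of_toFn_eq {z : CR} {r : RatFunc k} (h : toFn W z = jK r) :
    ∃ p : k[X], r = ι p ∧ z = algebraMap k[X] CR p := by
  obtain ⟨a, b, rfl⟩ := Affine.CoordinateRing.exists_smul_basis_eq z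
  rw [Algebra.smul_def, Algebra.smul_def, mul_one, map_add, map_mul, toFn_algebraMap,
    toFn_algebraMap, show Affine.CoordinateRing.mk W (X : (k[X])[X]) = AdjoinRoot.root _ from AdjoinRoot.mk_X,
    toFn_root] at h
  have h' : jK (ι a - r) + jK (ι b) * genY W = 0 := by rw [map_sub]; linear_combination h
  obtain ⟨h0, h1⟩ := eq_zero_of_add_mul_genY_eq_zero W h'
  refine ⟨a, (sub_eq_zero.mp h0).symm, ?_⟩
  rw [(map_eq_zero_iff _ (RatFunc.algebraMap_injective k)).mp h1]
  simp [Algebra.smul_def]

/-- Evaluation of the coordinate ring at a point. -/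
def evalPt {F : Type*} [Field F] [Algebra k F] {x y : F} (h : (W⁄F).toAffine.Equation x y) :
    CR →+* F :=
  AdjoinRoot.lift ((aeval (R := k) x).toRingHom) y (by
    rw [Affine.equation_iff] at h
    simp only [WeierstrassCurve.baseChange, WeierstrassCurve.map_a₁, WeierstrassCurve.map_a₂,
      WeierstrassCurve.map_a₃, WeierstrassCurve.map_a₄, WeierstrassCurve.map_a₆] at h
    simp only [Affine.polynomial, eval₂_sub, eval₂_add, eval₂_mul, eval₂_pow, eval₂_C, eval₂_X,
      AlgHom.toRingHom_eq_coe, RingHom.coe_coe, map_add, map_mul, map_pow, aeval_X, aeval_C]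
    linear_combination h)

omit [Finite k] in
lemma evalPt_algebraMap {F : Type*} [Field F] [Algebra k F] {x y : F}
    (h : (W⁄F).toAffine.Equation x y) (p : k[X]) :
    evalPt W h (algebraMap k[X] CR p) = aeval x p := by
  simp [evalPt, AdjoinRoot.algebraMap_eq]

omit [Finite k] in
lemma evalPt_root {F : Type*} [Field F] [Algebra k F] {x y : F}
    (h : (W⁄F).toAffine.Equation x y) :
    evalPt W h (AdjoinRoot.root _) = y := by
  simp [evalPt]

/-- `X ^ q - X`. -/
def tPoly : k[X] := X ^ qk - X

/-- `y ^ q + y + a₁ x + a₃`, the slope numerator for `Frob G - G`. -/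
def slopeSub : CR :=
  AdjoinRoot.root _ ^ qk + AdjoinRoot.root _ + algebraMap k[X] CR (C W.a₁ * X + C W.a₃)

/-- `y ^ q - y`, the slope numerator for `Frob G + G`. -/
def slopeAdd : CR := AdjoinRoot.root _ ^ qk - AdjoinRoot.root _

/-- The numerator of `addX` for a slope numerator `c`, over `t ^ 2`. -/
def xNum (c : CR) : CR :=
  c ^ 2 + algebraMap k[X] CR (C W.a₁ * tPoly (k := k)) * c
    - algebraMap k[X] CR ((C W.a₂ + X ^ qk + X) * tPoly (k := k) ^ 2)

/-- Sum of the two numerators. -/
def sumPoly : k[X] :=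
  2 * X ^ qk * X * (X ^ qk + X) + C W.b₂ * X ^ qk * X + C W.b₄ * (X ^ qk + X) + C W.b₆

/-- Product of the two numerators over `t ^ 2`. -/
def prodPoly : k[X] :=
  (X ^ qk * X) ^ 2 - C W.b₄ * (X ^ qk * X) - C W.b₆ * (X ^ qk + X) - C W.b₈

lemma two_le_qk : 2 ≤ Nat.card k := Finite.one_lt_card

lemma tPoly_ne_zero : tPoly (k := k) ≠ 0 :=
  FiniteField.X_pow_card_sub_X_ne_zero k Finite.one_lt_card

lemma natDegree_tPoly : (tPoly (k := k)).natDegree = qk :=
  FiniteField.X_pow_card_sub_X_natDegree_eq k Finite.one_lt_card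

lemma pow_qk (a : k) : a ^ qk = a := by
  have := Fintype.ofFinite k
  rw [Nat.card_eq_fintype_card]; exact FiniteField.pow_card a

lemma exists_eq_algebraMap_of_pow_eq {F : Type*} [Field F] [Algebra k F] {y : F}
    (h : y ^ qk = y) : ∃ r : k, algebraMap k F r = y := by
  have := Fintype.ofFinite k
  classical
  by_contra hcon
  push Not at hcon
  have hsub : insert y (Finset.univ.image (algebraMap k F))
      ⊆ (X ^ qk - X : F[X]).roots.toFinset := by
    intro z hz
    rw [Multiset.mem_toFinset, mem_roots (FiniteField.X_pow_card_sub_X_ne_zero F Finite.one_lt_card)]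
    simp only [Finset.mem_insert, Finset.mem_image, Finset.mem_univ, true_and] at hz
    rcases hz with rfl | ⟨r, rfl⟩
    · simp [h]
    · simp [← map_pow, pow_qk]
  have := (Finset.card_le_card hsub).trans
    ((Multiset.toFinset_card_le _).trans (card_roots' _))
  rw [FiniteField.X_pow_card_sub_X_natDegree_eq F Finite.one_lt_card, Finset.card_insert_of_notMem
    (by simpa using hcon), Finset.card_image_of_injective _ (algebraMap k F).injective,
    Finset.card_univ, ← Nat.card_eq_fintype_card] at this
  omega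

lemma tPoly_eq_prod [Fintype k] : tPoly (k := k) = ∏ a : k, (X - C a) := by
  have hm : (tPoly (k := k)).Monic := by
    rw [tPoly]; exact monic_X_pow_sub (by
      rw [degree_X]; exact_mod_cast (Finite.one_lt_card (α := k)))
  have hr : (tPoly (k := k)).roots = (Finset.univ : Finset k).val := by
    rw [tPoly, Nat.card_eq_fintype_card]; exact FiniteField.roots_X_pow_card_sub_X k
  rw [← prod_multiset_X_sub_C_of_monic_of_roots_card_eq hm (by
    rw [hr, natDegree_tPoly, Nat.card_eq_fintype_card]; rfl), hr]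
  rfl

/-- The number of rational points above `a`. -/
def fiberCard (a : k) : ℕ := Nat.card {y : k // W.toAffine.Equation a y}

section Elliptic

variable [W.IsElliptic]

lemma natCard_point : Nat.card W.toAffine.Point = (∑ᶠ a : k, fiberCard W a) + 1 := by
  have := Fintype.ofFinite k
  rw [Nat.card_congr (W.toAffine.pointEquiv),
    finsum_eq_sum_of_fintype]
  have e : WithZero {xy : k × k // W.toAffine.Equation xy.fst xy.snd} ≃
      Option (Σ a : k, {y : k // W.toAffine.Equation a y}) :=
    Equiv.optionCongr (Equiv.subtypeProdEquivSigmaSubtype fun a b => W.toAffine.Equation a b)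
  rw [Nat.card_congr e, Finite.card_option, Nat.card_sigma]
  rfl

/-- The local shape of `n = x(Frob G - G) t²` at a rational `a`. -/
lemma rootMultiplicity_spec {n n' : k[X]} (hn : algebraMap k[X] CR n = xNum W (slopeSub W))
    (hn' : algebraMap k[X] CR n' = xNum W (slopeAdd W))
    (hprod : n * n' = prodPoly W * tPoly (k := k) ^ 2) (hn0 : n ≠ 0) (hn0' : n' ≠ 0) (a : k) :
    fiberCard W a ≤ 2 ∧ 2 - fiberCard W a ≤ n.rootMultiplicity a ∧
      (1 ≤ fiberCard W a → n.rootMultiplicity a = 2 - fiberCard W a) := by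
  classical
  have := Fintype.ofFinite k
  set Ω := AlgebraicClosure k
  set φ := algebraMap k Ω with hφ
  obtain ⟨y₀, hy₀⟩ := IsAlgClosed.exists_root
    (p := X ^ 2 + C (φ (W.a₁ * a + W.a₃)) * X -
      C (φ (a ^ 3 + W.a₂ * a ^ 2 + W.a₄ * a + W.a₆)))
    (by
      intro hd
      have : (X ^ 2 + C (φ (W.a₁ * a + W.a₃)) * X -
          C (φ (a ^ 3 + W.a₂ * a ^ 2 + W.a₄ * a + W.a₆))).natDegree = 2 := by compute_degree!
      rw [natDegree_eq_of_degree_eq_some (n := 0) (by exact_mod_cast hd)] at this
      omega)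
  have heq : (W⁄Ω).toAffine.Equation (φ a) y₀ := by
    rw [Affine.equation_iff]
    simp [φ, WeierstrassCurve.baseChange] at hy₀ ⊢
    linear_combination hy₀
  have ht0 : (tPoly (k := k)).eval a = 0 := by simp [tPoly, pow_qk]
  have htφ : aeval (φ a) (tPoly (k := k)) = 0 := by
    rw [hφ, aeval_algebraMap_apply, Polynomial.coe_aeval_eq_eval, ht0, map_zero]
  -- values of the numerators at the geometric point
  have hval : φ (n.eval a) = (y₀ ^ qk - (W⁄Ω).toAffine.negY (φ a) y₀) ^ 2 := by
    have h := congr_arg (evalPt W heq) hn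
    rw [evalPt_algebraMap, aeval_algebraMap_apply, Polynomial.coe_aeval_eq_eval] at h
    rw [h, xNum, slopeSub]
    simp only [map_sub, map_add, map_mul, map_pow, evalPt_algebraMap, evalPt_root, htφ, aeval_C,
      aeval_X]
    simp [Affine.negY, WeierstrassCurve.baseChange, φ]
    ring
  have hval' : φ (n'.eval a) = (y₀ ^ qk - y₀) ^ 2 := by
    have h := congr_arg (evalPt W heq) hn'
    rw [evalPt_algebraMap, aeval_algebraMap_apply, Polynomial.coe_aeval_eq_eval] at h
    rw [h, xNum, slopeAdd]
    simp only [map_sub, map_add, map_mul, map_pow, evalPt_algebraMap, evalPt_root, htφ, aeval_C,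
      aeval_X]
    ring
  have hy0q : (W⁄Ω).toAffine.Equation (φ a) (y₀ ^ qk) := by
    have h := congr_arg (frobAlg k Ω) ((Affine.equation_iff _ _).mp heq)
    rw [Affine.equation_iff]
    simp only [φ, WeierstrassCurve.baseChange, WeierstrassCurve.map_a₁, WeierstrassCurve.map_a₂,
      WeierstrassCurve.map_a₃, WeierstrassCurve.map_a₄, WeierstrassCurve.map_a₆, map_add, map_mul,
      map_pow, AlgHom.commutes] at h ⊢
    simp only [frobAlg_apply] at h
    exact h
  have hroots : ∀ {z : Ω}, (W⁄Ω).toAffine.Equation (φ a) z →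
      z = y₀ ∨ z = (W⁄Ω).toAffine.negY (φ a) y₀ :=
    fun hz => Affine.Y_eq_of_X_eq hz heq rfl
  have hrat : ∀ r : k, W.toAffine.Equation a r → (W⁄Ω).toAffine.Equation (φ a) (φ r) := fun r hr =>
    (W.toAffine.baseChange_equation (f := Algebra.ofId k Ω) φ.injective a r).mpr (by simpa [WeierstrassCurve.baseChange] using hr)
  have hneg : φ (W.toAffine.negY a 0) = (W⁄Ω).toAffine.negY (φ a) 0 := by
    simp [Affine.negY, WeierstrassCurve.baseChange, φ]
  have hmult : ∀ {e : ℕ}, (prodPoly W).rootMultiplicity a = e ∨ e = 0 →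
      2 + e ≤ n.rootMultiplicity a + n'.rootMultiplicity a := by
    intro e he
    have hne : n * n' ≠ 0 := mul_ne_zero hn0 hn0'
    rw [← rootMultiplicity_mul hne, hprod, rootMultiplicity_mul (hprod ▸ hne), pow_two,
      rootMultiplicity_mul (mul_ne_zero tPoly_ne_zero tPoly_ne_zero)]
    have : 1 ≤ (tPoly (k := k)).rootMultiplicity a :=
      (rootMultiplicity_pos tPoly_ne_zero).mpr ht0
    omega
  by_cases hy : y₀ ^ qk = y₀
  · -- `y₀` is rational
    obtain ⟨r, rfl⟩ := exists_eq_algebraMap_of_pow_eq hy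
    have hr : W.toAffine.Equation a r :=
      (W.toAffine.baseChange_equation (f := Algebra.ofId k Ω) φ.injective a r).mp heq |> fun h => by
        simpa [WeierstrassCurve.baseChange] using h
    have hcard : fiberCard W a = ({r, W.toAffine.negY a r} : Finset k).card := by
      rw [fiberCard, ← Nat.card_eq_finsetCard]
      refine Nat.card_congr (Equiv.subtypeEquivRight fun z => ?_)
      simp only [Finset.mem_insert, Finset.mem_singleton]
      refine ⟨fun hz => Affine.Y_eq_of_X_eq hz hr rfl, ?_⟩
      rintro (rfl | rfl)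
      · exact hr
      · exact (Affine.equation_neg _ _).mpr hr
    rw [hy] at hval hval'
    have hn'a : n'.eval a = 0 := φ.injective (by simpa using hval')
    have hna : n.eval a = (r - W.toAffine.negY a r) ^ 2 := φ.injective (by
      rw [hval]; simp [Affine.negY, WeierstrassCurve.baseChange, φ])
    by_cases hdist : r = W.toAffine.negY a r
    · -- one point
      rw [← hdist, sub_self, zero_pow two_ne_zero] at hna
      have hB : (prodPoly W).eval a ≠ 0 := by
        have hBa : (prodPoly W).eval a = dblNum W a := by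
          simp [prodPoly, pow_qk, ← prodNum_self, prodNum]
        rw [hBa]
        refine not_dblNum_eq_zero_of_dblDen_eq_zero W.isUnit_Δ.ne_zero hr ?_
        rw [dblDen_eq_sq hr, ← hdist, sub_self, zero_pow two_ne_zero]
      have hc : fiberCard W a = 1 := by rw [hcard, ← hdist]; simp
      have h1 : 1 ≤ n.rootMultiplicity a := (rootMultiplicity_pos hn0).mpr hna
      have h2 : 1 ≤ n'.rootMultiplicity a := (rootMultiplicity_pos hn0').mpr hn'a
      have h3 : n.rootMultiplicity a + n'.rootMultiplicity a = 2 := by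
        have hne : n * n' ≠ 0 := mul_ne_zero hn0 hn0'
        rw [← rootMultiplicity_mul hne, hprod, rootMultiplicity_mul (hprod ▸ hne),
          rootMultiplicity_eq_zero hB, zero_add, tPoly_eq_prod,
          ← Finset.mul_prod_erase _ _ (Finset.mem_univ a), mul_pow,
          rootMultiplicity_mul (mul_ne_zero (pow_ne_zero _ (X_sub_C_ne_zero a))
            (pow_ne_zero _ (Finset.prod_ne_zero_iff.mpr fun b _ => X_sub_C_ne_zero b))),
          rootMultiplicity_X_sub_C_pow, rootMultiplicity_eq_zero, add_zero]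
        intro h0
        simp only [IsRoot, eval_pow, eval_prod, eval_sub, eval_X, eval_C, pow_eq_zero_iff two_ne_zero,
          Finset.prod_eq_zero_iff, sub_eq_zero] at h0
        obtain ⟨b, hb, rfl⟩ := h0
        exact Finset.ne_of_mem_erase hb rfl
      omega
    · -- two points
      have hc : fiberCard W a = 2 := by rw [hcard, Finset.card_pair hdist]
      have h0 : n.rootMultiplicity a = 0 := rootMultiplicity_eq_zero (by
        rw [IsRoot, hna]; exact pow_ne_zero _ (sub_ne_zero.mpr hdist))
      omega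
  · -- no rational point
    have hc : fiberCard W a = 0 := by
      rw [fiberCard, Nat.card_eq_zero]
      refine Or.inl ⟨fun ⟨r, hr⟩ => hy ?_⟩
      rcases hroots (hrat r hr) with h | h
      · rw [← h, ← map_pow, pow_qk]
      · have h' : y₀ = φ (W.toAffine.negY a r) := by
          have := congr_arg ((W⁄Ω).toAffine.negY (φ a)) h
          rw [Affine.negY_negY] at this
          rw [← this]
          simp [Affine.negY, WeierstrassCurve.baseChange, φ]
        rw [h', ← map_pow, pow_qk]
    have hq := (hroots hy0q).resolve_left hy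
    have hn'a : n'.eval a ≠ 0 := by
      intro h0
      rw [h0, map_zero, eq_comm, pow_eq_zero_iff two_ne_zero, sub_eq_zero] at hval'
      exact hy hval'
    have h2 : n'.rootMultiplicity a = 0 := rootMultiplicity_eq_zero hn'a
    have := hmult (e := 0) (Or.inr rfl)
    omega

omit [W.IsElliptic] in
lemma natDegree_sumPoly_le : (sumPoly W).natDegree ≤ 2 * qk + 1 := by
  have hq := two_le_qk (k := k)
  rw [sumPoly]
  compute_degree
  all_goals omega

omit [W.IsElliptic] in
lemma natDegree_prodPoly : (prodPoly W).natDegree = 2 * qk + 2 := by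
  have hq := two_le_qk (k := k)
  have h1 : (C W.b₄ * (X ^ qk * X) + C W.b₆ * (X ^ qk + X) + C W.b₈).natDegree ≤ qk + 1 := by
    compute_degree
  have : prodPoly W =
      X ^ (2 * qk + 2) - (C W.b₄ * (X ^ qk * X) + C W.b₆ * (X ^ qk + X) + C W.b₈) := by
    rw [prodPoly]; ring
  rw [this, natDegree_sub_eq_left_of_natDegree_lt (by rw [natDegree_X_pow]; omega),
    natDegree_X_pow]

/-- The degree of `x(Frob G - G)` is `#E(k)`. -/
theorem ptDeg_frobPt_sub_genPt :
    ptDeg (frobPt W (genPt W) - genPt W) = Nat.card W.toAffine.Point := by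
  classical
  have := Fintype.ofFinite k
  have hG := genPt_mem W
  have hFG := frobPt_mem_oddPts W hG
  obtain ⟨h', hF⟩ := frobPt_some W (gen_nonsingular W)
  have hsub := (oddPts W).sub_mem hFG hG
  have hadd := (oddPts W).add_mem hFG hG
  rw [genPt] at hsub hadd hFG ⊢
  rw [hF] at hsub hadd ⊢
  have hXne : genX W ^ qk ≠ genX W := by
    intro h
    rw [genX, ← map_pow] at h
    have h2 := (jK).injective h
    rw [← RatFunc.algebraMap_X, ← map_pow] at h2
    exact tPoly_ne_zero (k := k) (sub_eq_zero.mpr (RatFunc.algebraMap_injective k h2))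
  rw [sub_eq_add_neg, Affine.Point.neg_some, Affine.Point.add_of_X_ne hXne] at hsub ⊢
  rw [Affine.Point.add_of_X_ne hXne] at hadd
  obtain ⟨ξ, hξ⟩ := hasRatX_oddPts W _ _ _ hsub
  obtain ⟨ξ', hξ'⟩ := hasRatX_oddPts W _ _ _ hadd
  rw [ptDeg_some hξ]
  have hsum := addX_add_addX_negY h'.1 (gen_equation W) hXne
  have hprod := addX_mul_addX_negY h'.1 (gen_equation W) hXne
  rw [← hξ, ← hξ'] at hsum hprod
  have htK : jK (ι (tPoly (k := k))) = genX W ^ qk - genX W := by
    simp [tPoly, genX]
  have ht0 : genX W ^ qk - genX W ≠ 0 := sub_ne_zero.mpr hXne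
  have hιt : ι (tPoly (k := k)) ≠ 0 := iota_ne_zero tPoly_ne_zero
  have hnum : ∀ (c : CR) (r : RatFunc k) (y₂ : FnField W),
      toFn W c = genY W ^ qk - y₂ →
      jK r = (W⁄(FnField W)).addX (genX W ^ qk) (genX W)
        ((W⁄(FnField W)).slope (genX W ^ qk) (genX W) (genY W ^ qk) y₂) →
      ∃ p : k[X], r * ι (tPoly (k := k)) ^ 2 = ι p ∧ algebraMap k[X] CR p = xNum W c := by
    intro c r y₂ hc hr
    obtain ⟨p, hp, hp'⟩ := exists_poly_of_toFn_eq W (z := xNum W c)
      (r := r * ι (tPoly (k := k)) ^ 2) (by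
        rw [map_mul, map_pow, htK, hr, Affine.slope_of_X_ne hXne]
        simp only [xNum, map_add, map_sub, map_mul, map_pow, toFn_algebraMap, hc, htK]
        simp [Affine.addX, WeierstrassCurve.baseChange, genX, ← RatFunc.algebraMap_eq_C,
          ← IsScalarTower.algebraMap_apply] at ht0 ⊢
        field_simp
        ring)
    exact ⟨p, hp, hp'.symm⟩
  obtain ⟨n, hn, hnR⟩ := hnum (slopeSub W) ξ _ (by
    simp [slopeSub, toFn_root, toFn_algebraMap, Affine.negY, WeierstrassCurve.baseChange, genX,
      ← RatFunc.algebraMap_eq_C, ← IsScalarTower.algebraMap_apply]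
    ring) hξ
  obtain ⟨n', hn', hnR'⟩ := hnum (slopeAdd W) ξ' _ (by simp [slopeAdd, toFn_root]) hξ'
  have hA : n' + n = sumPoly W := by
    apply RatFunc.algebraMap_injective k
    apply (jK).injective
    rw [map_add, map_add, ← hn, ← hn', map_mul, map_mul, ← add_mul, hsum, map_pow, htK,
      div_mul_cancel₀ _ (pow_ne_zero 2 ht0)]
    simp [sumPoly, sumNum, WeierstrassCurve.baseChange, genX, ← RatFunc.algebraMap_eq_C,
      ← IsScalarTower.algebraMap_apply, map_ofNat]
  have hB : n * n' = prodPoly W * tPoly (k := k) ^ 2 := by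
    apply RatFunc.algebraMap_injective k
    apply (jK).injective
    rw [map_mul, map_mul, ← hn, ← hn', map_mul, map_mul, map_mul (algebraMap _ _), map_mul,
      map_pow, map_pow (algebraMap _ _), map_pow, htK]
    rw [show jK ξ * (genX W ^ qk - genX W) ^ 2 * (jK ξ' * (genX W ^ qk - genX W) ^ 2)
      = jK ξ' * jK ξ * (genX W ^ qk - genX W) ^ 2 * (genX W ^ qk - genX W) ^ 2 by ring, hprod,
      div_mul_cancel₀ _ (pow_ne_zero 2 ht0)]
    simp [prodPoly, prodNum, WeierstrassCurve.baseChange, genX, ← RatFunc.algebraMap_eq_C,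
      ← IsScalarTower.algebraMap_apply]
  -- degrees
  have hB0 : prodPoly W ≠ 0 := by
    intro h; have := natDegree_prodPoly W; rw [h, natDegree_zero] at this; omega
  have hn0 : n ≠ 0 := by
    rintro rfl; rw [zero_mul, eq_comm, mul_eq_zero] at hB
    exact hB.elim hB0 (pow_ne_zero 2 tPoly_ne_zero)
  have hn0' : n' ≠ 0 := by
    rintro rfl; rw [mul_zero, eq_comm, mul_eq_zero] at hB
    exact hB.elim hB0 (pow_ne_zero 2 tPoly_ne_zero)
  have hdn : n.natDegree = 2 * qk + 1 := by
    have h1 : n.natDegree + n'.natDegree = 4 * qk + 2 := by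
      rw [← natDegree_mul hn0 hn0', hB, natDegree_mul hB0 (pow_ne_zero 2 tPoly_ne_zero),
        natDegree_pow, natDegree_tPoly, natDegree_prodPoly]
      omega
    have h2 := natDegree_sumPoly_le W
    rw [← hA] at h2
    rcases lt_trichotomy n.natDegree n'.natDegree with h | h | h
    · rw [natDegree_add_eq_left_of_natDegree_lt h] at h2; omega
    · omega
    · rw [natDegree_add_eq_right_of_natDegree_lt h] at h2; omega
  -- cancellation
  have hspec := rootMultiplicity_spec W hnR hnR' hB hn0 hn0'
  let g : k[X] := ∏ a : k, (X - C a) ^ (2 - fiberCard W a)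
  let h : k[X] := ∏ a : k, (X - C a) ^ fiberCard W a
  have hgh : tPoly (k := k) ^ 2 = g * h := by
    rw [tPoly_eq_prod, ← Finset.prod_pow, ← Finset.prod_mul_distrib]
    refine Finset.prod_congr rfl fun a _ => ?_
    rw [← pow_add, Nat.sub_add_cancel (hspec a).1]
  obtain ⟨m, hm⟩ : g ∣ n := by
    refine Finset.prod_dvd_of_coprime (fun a _ b _ hab => ?_) fun a _ => ?_
    · exact (Polynomial.isCoprime_X_sub_C_of_isUnit_sub
        (sub_ne_zero.mpr hab).isUnit).pow
    · exact (le_rootMultiplicity_iff hn0).mp (hspec a).2.1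
  have hg0 : g ≠ 0 := Finset.prod_ne_zero_iff.mpr fun a _ => pow_ne_zero _ (X_sub_C_ne_zero a)
  have hh0 : h ≠ 0 := Finset.prod_ne_zero_iff.mpr fun a _ => pow_ne_zero _ (X_sub_C_ne_zero a)
  have hm0 : m ≠ 0 := fun h0 => hn0 (by rw [hm, h0, mul_zero])
  have hcop : IsCoprime m h := by
    refine IsCoprime.prod_right fun a _ => ?_
    rcases Nat.eq_zero_or_pos (fiberCard W a) with h0 | h0
    · rw [h0, pow_zero]; exact isCoprime_one_right
    refine IsCoprime.pow_right (IsCoprime.symm ?_)
    rw [(irreducible_X_sub_C a).coprime_iff_not_dvd, dvd_iff_isRoot]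
    intro hroot
    have h1 : 1 ≤ m.rootMultiplicity a := (rootMultiplicity_pos hm0).mpr hroot
    have h2 := (hspec a).2.2 h0
    rw [hm, rootMultiplicity_mul (hm ▸ hn0)] at h2
    have h3 : 2 - fiberCard W a ≤ g.rootMultiplicity a :=
      (le_rootMultiplicity_iff hg0).mpr (Finset.dvd_prod_of_mem _ (Finset.mem_univ a))
    omega
  have hξeq : ξ = ι m / ι h := by
    rw [eq_div_iff (iota_ne_zero hh0)]
    apply mul_left_cancel₀ (iota_ne_zero hg0)
    rw [← map_mul, ← hm, ← hn, ← map_pow, hgh, map_mul]
    ring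
  rw [rdeg_eq_of_isCoprime hh0 hcop hξeq, natCard_point, finsum_eq_sum_of_fintype]
  have hdh : h.natDegree = ∑ a : k, fiberCard W a := by
    rw [natDegree_prod _ _ fun a _ => pow_ne_zero _ (X_sub_C_ne_zero a)]
    simp
  have hd1 : g.natDegree + h.natDegree = 2 * qk := by
    rw [← natDegree_mul hg0 hh0, ← hgh, natDegree_pow, natDegree_tPoly]
  have hd2 : n.natDegree = g.natDegree + m.natDegree := by rw [hm, natDegree_mul hg0 hm0]
  omega

end Elliptic

end Fermat.Agent.ECFrob
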