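import Mathlib.AlgebraicGeometry.EllipticCurve.Affine.Formula

/-!
# `x(P+Q)`, `x(P-Q)` and `x(2P)` in terms of `x`-coordinates
-/

set_option autoImplicit false

noncomputable section

open WeierstrassCurve

namespace Fermat.Agent.ECFrob

variable {F : Type*} [Field F] [DecidableEq F] {W : WeierstrassCurve F}

/-- The numerator of `x(P+Q) + x(P-Q)` over `(x₁-x₂)²`. -/
def sumNum (W : WeierstrassCurve F) (x₁ x₂ : F) : F :=
  2 * x₁ * x₂ * (x₁ + x₂) + W.b₂ * x₁ * x₂ + W.b₄ * (x₁ + x₂) + W.b₆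

/-- The numerator of `x(P+Q) * x(P-Q)` over `(x₁-x₂)²`. -/
def prodNum (W : WeierstrassCurve F) (x₁ x₂ : F) : F :=
  (x₁ * x₂) ^ 2 - W.b₄ * (x₁ * x₂) - W.b₆ * (x₁ + x₂) - W.b₈

/-- The numerator of `x(2P)`. -/
def dblNum (W : WeierstrassCurve F) (x : F) : F :=
  x ^ 4 - W.b₄ * x ^ 2 - 2 * W.b₆ * x - W.b₈

/-- The denominator of `x(2P)`. -/
def dblDen (W : WeierstrassCurve F) (x : F) : F :=
  4 * x ^ 3 + W.b₂ * x ^ 2 + 2 * W.b₄ * x + W.b₆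

omit [DecidableEq F] in
lemma prodNum_self (x : F) : prodNum W x x = dblNum W x := by
  simp only [prodNum, dblNum]; ring

lemma addX_add_addX_negY {x₁ x₂ y₁ y₂ : F} (h₁ : W.toAffine.Equation x₁ y₁)
    (h₂ : W.toAffine.Equation x₂ y₂) (hx : x₁ ≠ x₂) :
    W.toAffine.addX x₁ x₂ (W.toAffine.slope x₁ x₂ y₁ y₂) +
      W.toAffine.addX x₁ x₂ (W.toAffine.slope x₁ x₂ y₁ (W.toAffine.negY x₂ y₂)) =
      sumNum W x₁ x₂ / (x₁ - x₂) ^ 2 := by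
  rw [Affine.slope_of_X_ne hx, Affine.slope_of_X_ne hx, eq_div_iff (pow_ne_zero 2 (sub_ne_zero.mpr hx))]
  have hc := sub_ne_zero.mpr hx
  rw [Affine.equation_iff] at h₁ h₂
  simp only [Affine.addX, Affine.negY, sumNum, WeierstrassCurve.b₂, WeierstrassCurve.b₄,
    WeierstrassCurve.b₆]
  field_simp
  linear_combination 2 * h₁ + 2 * h₂

lemma addX_mul_addX_negY {x₁ x₂ y₁ y₂ : F} (h₁ : W.toAffine.Equation x₁ y₁)
    (h₂ : W.toAffine.Equation x₂ y₂) (hx : x₁ ≠ x₂) :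
    W.toAffine.addX x₁ x₂ (W.toAffine.slope x₁ x₂ y₁ y₂) *
      W.toAffine.addX x₁ x₂ (W.toAffine.slope x₁ x₂ y₁ (W.toAffine.negY x₂ y₂)) =
      prodNum W x₁ x₂ / (x₁ - x₂) ^ 2 := by
  have hc := sub_ne_zero.mpr hx
  rw [Affine.equation_iff] at h₁ h₂
  rw [Affine.slope_of_X_ne hx, Affine.slope_of_X_ne hx, eq_div_iff (pow_ne_zero 2 hc)]
  simp only [Affine.addX, Affine.negY, prodNum, WeierstrassCurve.b₄, WeierstrassCurve.b₆,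
    WeierstrassCurve.b₈]
  field_simp
  linear_combination
    ((y₁ ^ 2 + W.a₁ * x₁ * y₁ + W.a₃ * y₁) + (y₂ ^ 2 + W.a₁ * x₂ * y₂ + W.a₃ * y₂)
      + (x₁ ^ 3 + W.a₂ * x₁ ^ 2 + W.a₄ * x₁ + W.a₆) + (x₂ ^ 3 + W.a₂ * x₂ ^ 2 + W.a₄ * x₂ + W.a₆)
      - 2 * (W.a₂ + x₁ + x₂) * (x₁ - x₂) ^ 2 + (W.a₁ * x₁ + W.a₃) * (W.a₁ * x₂ + W.a₃)
      - 4 * (y₂ ^ 2 + W.a₁ * x₂ * y₂ + W.a₃ * y₂) - (W.a₁ * x₂ + W.a₃) ^ 2) * h₁ +
    ((y₁ ^ 2 + W.a₁ * x₁ * y₁ + W.a₃ * y₁) + (y₂ ^ 2 + W.a₁ * x₂ * y₂ + W.a₃ * y₂)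
      + (x₁ ^ 3 + W.a₂ * x₁ ^ 2 + W.a₄ * x₁ + W.a₆) + (x₂ ^ 3 + W.a₂ * x₂ ^ 2 + W.a₄ * x₂ + W.a₆)
      - 2 * (W.a₂ + x₁ + x₂) * (x₁ - x₂) ^ 2 + (W.a₁ * x₁ + W.a₃) * (W.a₁ * x₂ + W.a₃)
      - 4 * (x₁ ^ 3 + W.a₂ * x₁ ^ 2 + W.a₄ * x₁ + W.a₆) - (W.a₁ * x₁ + W.a₃) ^ 2) * h₂

omit [DecidableEq F] in
lemma dblDen_eq_sq {x y : F} (h : W.toAffine.Equation x y) :
    dblDen W x = (y - W.toAffine.negY x y) ^ 2 := by
  rw [Affine.equation_iff] at h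
  simp only [dblDen, Affine.negY, WeierstrassCurve.b₂, WeierstrassCurve.b₄, WeierstrassCurve.b₆]
  linear_combination -4 * h

lemma addX_self {x y : F} (h : W.toAffine.Equation x y) (hy : y ≠ W.toAffine.negY x y) :
    W.toAffine.addX x x (W.toAffine.slope x x y y) = dblNum W x / dblDen W x := by
  rw [Affine.slope_of_Y_ne rfl hy, dblDen_eq_sq h,
    eq_div_iff (pow_ne_zero 2 (sub_ne_zero.mpr hy))]
  have hd := sub_ne_zero.mpr hy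
  rw [Affine.equation_iff] at h
  simp only [Affine.addX, Affine.negY, dblNum, WeierstrassCurve.b₄, WeierstrassCurve.b₆,
    WeierstrassCurve.b₈] at hd ⊢
  generalize hL : 3 * x ^ 2 + 2 * W.a₂ * x + W.a₄ - W.a₁ * y = L
  generalize hD : y - (-y - W.a₁ * x - W.a₃) = D at hd ⊢
  field_simp
  subst hL hD
  linear_combination (-W.a₁ ^ 2 - 4 * (W.a₂ + 2 * x)) * h

omit [DecidableEq F] in
lemma not_dblNum_eq_zero_of_dblDen_eq_zero (hΔ : W.Δ ≠ 0) {x y : F}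
    (h : W.toAffine.Equation x y) (hden : dblDen W x = 0) : dblNum W x ≠ 0 := by
  intro hnum
  have hy : y - W.toAffine.negY x y = 0 := by
    rw [dblDen_eq_sq h] at hden; exact pow_eq_zero_iff two_ne_zero |>.mp hden
  have hns := (Affine.equation_iff_nonsingular_of_Δ_ne_zero hΔ).mp h
  rw [Affine.equation_iff] at h
  rw [Affine.nonsingular_iff] at hns
  simp only [Affine.negY] at hy
  have key : (3 * x ^ 2 + 2 * W.a₂ * x + W.a₄ - W.a₁ * y) ^ 2 = 0 := by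
    simp only [dblNum, WeierstrassCurve.b₄, WeierstrassCurve.b₆, WeierstrassCurve.b₈] at hnum
    linear_combination hnum + (-W.a₁ ^ 2 - 4 * (W.a₂ + 2 * x)) * h +
      (-W.a₁ * (3 * x ^ 2 + 2 * W.a₂ * x + W.a₄ - W.a₁ * y) +
        (W.a₂ + 2 * x) * (2 * y + W.a₁ * x + W.a₃)) * hy
  rcases hns.2 with h' | h'
  · apply h'
    linear_combination -(pow_eq_zero_iff two_ne_zero |>.mp key)
  · apply h'
    linear_combination hy

end Fermat.Agent.ECFrob
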