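import Fermat.Agent.ECFrob.RatDeg
import Fermat.Agent.ECFrob.Formulas
import Mathlib.AlgebraicGeometry.EllipticCurve.Affine.Point
import Mathlib.FieldTheory.IsAlgClosed.AlgebraicClosure

/-!
# The parallelogram law for the degree of points with rational `x`-coordinate

`W` is an elliptic curve over a field `k`, `K` an extension of `k(X)`. On a subgroup of `E(K)` whose
`x`-coordinates lie in `k(X)` the function "degree of `x`" satisfies the exact parallelogram law.
-/

set_option autoImplicit false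

noncomputable section

open Polynomial WeierstrassCurve
open scoped WeierstrassCurve.Affine

namespace Fermat.Agent.ECFrob

section DblPoly

variable {k : Type*} [Field k] (W : WeierstrassCurve k)

/-- The numerator of the doubling map on `x`. -/
def dblNumPoly : k[X] := X ^ 4 - C W.b₄ * X ^ 2 - C (2 * W.b₆) * X - C W.b₈

/-- The denominator of the doubling map on `x`. -/
def dblDenPoly : k[X] := C 4 * X ^ 3 + C W.b₂ * X ^ 2 + C (2 * W.b₄) * X + C W.b₆

variable {F : Type*} [Field F] [Algebra k F]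

lemma aeval_dblNumPoly (x : F) :
    aeval x (dblNumPoly W) = dblNum (W⁄F) x := by
  simp [dblNumPoly, dblNum, WeierstrassCurve.baseChange, map_ofNat]

lemma aeval_dblDenPoly (x : F) :
    aeval x (dblDenPoly W) = dblDen (W⁄F) x := by
  simp [dblDenPoly, dblDen, WeierstrassCurve.baseChange, map_ofNat]

lemma natDegree_dblDenPoly_le : (dblDenPoly W).natDegree ≤ 3 := by
  rw [dblDenPoly]; compute_degree

lemma natDegree_dblNumPoly : (dblNumPoly W).natDegree = 4 := by
  rw [dblNumPoly]; compute_degree!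

lemma isCoprime_dbl [W.IsElliptic] : IsCoprime (dblNumPoly W) (dblDenPoly W) := by
  rw [Polynomial.isCoprime_iff_aeval_ne_zero_of_isAlgClosed (k := k)
    (K := AlgebraicClosure k)]
  intro x
  by_contra hcon
  push Not at hcon
  rw [aeval_dblNumPoly, aeval_dblDenPoly] at hcon
  set E := (W⁄(AlgebraicClosure k)) with hE
  obtain ⟨y, hy⟩ := IsAlgClosed.exists_root
    (p := X ^ 2 + C (E.a₁ * x + E.a₃) * X - C (x ^ 3 + E.a₂ * x ^ 2 + E.a₄ * x + E.a₆))
    (by
      intro hd
      have : (X ^ 2 + C (E.a₁ * x + E.a₃) * X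
        - C (x ^ 3 + E.a₂ * x ^ 2 + E.a₄ * x + E.a₆)).natDegree = 2 := by compute_degree!
      rw [natDegree_eq_of_degree_eq_some (n := 0) (by exact_mod_cast hd)] at this
      omega)
  have heq : E.toAffine.Equation x y := by
    rw [Affine.equation_iff]
    simp only [IsRoot, eval_add, eval_sub, eval_pow, eval_X, eval_mul, eval_C] at hy
    linear_combination hy
  have hΔ : E.Δ ≠ 0 := by simp [E, WeierstrassCurve.baseChange, W.isUnit_Δ.ne_zero]
  exact not_dblNum_eq_zero_of_dblDen_eq_zero hΔ heq hcon.2 hcon.1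

end DblPoly

variable {k : Type*} [Field k] {W : WeierstrassCurve k}
variable {K : Type*} [Field K] [DecidableEq K] [Algebra k K] [Algebra (RatFunc k) K]
  [IsScalarTower k (RatFunc k) K]

local notation "ι" => algebraMap (Polynomial k) (RatFunc k)
local notation "jK" => algebraMap (RatFunc k) K

/-- The degree of the `x`-coordinate of a point. -/
def ptDeg : (W⁄K).Point → ℕ
  | 0 => 0
  | .some x _ _ => rdeg (Function.invFun (algebraMap (RatFunc k) K) x)

omit [DecidableEq K] [IsScalarTower k (RatFunc k) K] in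
@[simp] lemma ptDeg_zero : ptDeg (0 : (W⁄K).Point) = 0 := rfl

omit [DecidableEq K] [IsScalarTower k (RatFunc k) K] in
lemma ptDeg_some {r : RatFunc k} {x y : K} (hx : jK r = x) (h : (W⁄K).Nonsingular x y) :
    ptDeg (Affine.Point.some x y h : (W⁄K).Point) = rdeg r := by
  subst hx
  show rdeg (Function.invFun (jK) (jK r)) = rdeg r
  rw [Function.leftInverse_invFun (jK).injective r]

omit [DecidableEq K] [IsScalarTower k (RatFunc k) K] in
lemma ptDeg_neg (P : (W⁄K).Point) : ptDeg (-P) = ptDeg P := by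
  cases P <;> rfl

/-- Every affine point of the set has its `x`-coordinate in `k(X)`. -/
def HasRatX (M : AddSubgroup (W⁄K).Point) : Prop :=
  ∀ (x y : K) (h : (W⁄K).Nonsingular x y),
    (Affine.Point.some x y h : (W⁄K).Point) ∈ M → x ∈ Set.range (algebraMap (RatFunc k) K)

omit [DecidableEq K] in
lemma dblNum_algebraMap (r : RatFunc k) :
    dblNum (W⁄K) (jK r) = jK (aeval r (dblNumPoly W)) := by
  rw [← aeval_dblNumPoly, aeval_algebraMap_apply]

omit [DecidableEq K] in
lemma dblDen_algebraMap (r : RatFunc k) :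
    dblDen (W⁄K) (jK r) = jK (aeval r (dblDenPoly W)) := by
  rw [← aeval_dblDenPoly, aeval_algebraMap_apply]

omit [DecidableEq K] in
lemma algebraMap_X_k (a : k) : algebraMap k K a = jK (ι (C a)) := by
  rw [RatFunc.algebraMap_C, ← RatFunc.algebraMap_eq_C, ← IsScalarTower.algebraMap_apply]

variable [W.IsElliptic]

/-- Doubling multiplies the degree by four. -/
lemma ptDeg_two_nsmul {M : AddSubgroup (W⁄K).Point} (hM : HasRatX M) {P : (W⁄K).Point}
    (hP : P ∈ M) : ptDeg (P + P) = 4 * ptDeg P := by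
  match P, hP with
  | 0, _ => simp
  | .some x y h, hP =>
    obtain ⟨r, rfl⟩ := hM x y h hP
    have hΨ0 : dblDenPoly W ≠ 0 := fun h0 => by
      have := (isCoprime_dbl W)
      rw [h0, isCoprime_zero_right] at this
      have := natDegree_eq_zero_of_isUnit this
      rw [natDegree_dblNumPoly] at this
      omega
    rw [ptDeg_some rfl h]
    by_cases hy : y = (W⁄K).toAffine.negY (jK r) y
    · rw [Affine.Point.add_self_of_Y_eq hy, ptDeg_zero]
      have hden : dblDen (W⁄K) (jK r) = 0 := by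
        rw [dblDen_eq_sq h.1, ← hy, sub_self, zero_pow two_ne_zero]
      rw [dblDen_algebraMap, map_eq_zero] at hden
      rw [rdeg_eq_zero_of_aeval_eq_zero hΨ0 hden]
    · rw [Affine.Point.add_self_of_Y_ne hy]
      have hx := addX_self h.1 hy
      rw [dblNum_algebraMap, dblDen_algebraMap, ← map_div₀] at hx
      rw [ptDeg_some hx.symm]
      have hden : aeval r (dblDenPoly W) ≠ 0 := by
        intro h0
        have : dblDen (W⁄K) (jK r) = 0 := by rw [dblDen_algebraMap, h0, map_zero]
        rw [dblDen_eq_sq h.1] at this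
        exact hy (sub_eq_zero.mp (pow_eq_zero_iff two_ne_zero |>.mp this))
      rw [rdeg_aeval_div (isCoprime_dbl W) r hden, natDegree_dblNumPoly,
        max_eq_left (le_trans (natDegree_dblDenPoly_le W) (by norm_num))]

lemma ptDeg_add_add_ptDeg_sub_le {M : AddSubgroup (W⁄K).Point} (hM : HasRatX M)
    {P Q : (W⁄K).Point} (hP : P ∈ M) (hQ : Q ∈ M) :
    ptDeg (P + Q) + ptDeg (P - Q) ≤ 2 * ptDeg P + 2 * ptDeg Q := by
  have hadd := M.add_mem hP hQ
  have hsub := M.sub_mem hP hQ
  match P, Q, hP, hQ, hadd, hsub with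
  | 0, Q, _, _, _, _ => simp [ptDeg_neg]; omega
  | P, 0, _, _, _, _ => simp; omega
  | .some x₁ y₁ h₁, .some x₂ y₂ h₂, hP, hQ, hadd, hsub =>
    obtain ⟨r₁, rfl⟩ := hM x₁ y₁ h₁ hP
    obtain ⟨r₂, rfl⟩ := hM x₂ y₂ h₂ hQ
    by_cases hx : jK r₁ = jK r₂
    · rcases Affine.Point.X_eq_iff.mp hx with h' | h'
      · rw [h', sub_self, ptDeg_zero, ptDeg_two_nsmul hM hQ]; omega
      · rw [h', neg_add_cancel, ptDeg_zero, sub_eq_add_neg, ptDeg_two_nsmul hM (M.neg_mem hQ)]
        simp only [ptDeg_neg]; omega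
    · rw [Affine.Point.add_of_X_ne hx] at hadd ⊢
      rw [sub_eq_add_neg, Affine.Point.neg_some, Affine.Point.add_of_X_ne hx] at hsub ⊢
      obtain ⟨r₃, hr₃⟩ := hM _ _ _ hadd
      obtain ⟨r₄, hr₄⟩ := hM _ _ _ hsub
      rw [ptDeg_some hr₃, ptDeg_some hr₄, ptDeg_some rfl h₁, ptDeg_some rfl h₂]
      have hs := addX_add_addX_negY h₁.1 h₂.1 hx
      have hp := addX_mul_addX_negY h₁.1 h₂.1 hx
      rw [← hr₃, ← hr₄] at hs hp
      have hb : ∀ f : WeierstrassCurve K → K, ∀ g : k, f (W⁄K) = algebraMap k K g →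
          f (W⁄K) = jK (ι (C g)) := fun f g hfg => by rw [hfg, algebraMap_X_k]
      have hb2 := hb (·.b₂) W.b₂ (by simp [WeierstrassCurve.baseChange])
      have hb4 := hb (·.b₄) W.b₄ (by simp [WeierstrassCurve.baseChange])
      have hb6 := hb (·.b₆) W.b₆ (by simp [WeierstrassCurve.baseChange])
      have hb8 := hb (·.b₈) W.b₈ (by simp [WeierstrassCurve.baseChange])
      set u₁ := r₁.num with hu₁
      set v₁ := r₁.denom with hv₁
      set u₂ := r₂.num with hu₂
      set v₂ := r₂.denom with hv₂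
      have e₁ : r₁ = ι u₁ / ι v₁ := (RatFunc.num_div_denom r₁).symm
      have e₂ : r₂ = ι u₂ / ι v₂ := (RatFunc.num_div_denom r₂).symm
      have hv10 := iota_ne_zero (r₁.denom_ne_zero)
      have hv20 := iota_ne_zero (r₂.denom_ne_zero)
      rw [← hv₁] at hv10
      rw [← hv₂] at hv20
      have hne : ι (u₁ * v₂ - u₂ * v₁) ≠ 0 := by
        intro h0
        apply hx
        rw [e₁, e₂]
        congr 1
        rw [div_eq_div_iff hv10 hv20, ← map_mul, ← map_mul, ← sub_eq_zero, ← map_sub]
        exact h0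
      let A : k[X] := 2 * u₁ * u₂ * (u₁ * v₂ + u₂ * v₁) + C W.b₂ * u₁ * u₂ * v₁ * v₂
        + C W.b₄ * (u₁ * v₂ + u₂ * v₁) * (v₁ * v₂) + C W.b₆ * (v₁ * v₂) ^ 2
      let B : k[X] := (u₁ * u₂) ^ 2 - C W.b₄ * (u₁ * u₂) * (v₁ * v₂)
        - C W.b₆ * (u₁ * v₂ + u₂ * v₁) * (v₁ * v₂) - C W.b₈ * (v₁ * v₂) ^ 2
      let Cc : k[X] := (u₁ * v₂ - u₂ * v₁) ^ 2
      have hC : Cc ≠ 0 := pow_ne_zero 2 (fun h0 => hne (by rw [h0, map_zero]))
      have hj10 : jK (ι v₁) ≠ 0 := by simpa using hv10
      have hj20 : jK (ι v₂) ≠ 0 := by simpa using hv20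
      have hjne : jK (ι u₁) * jK (ι v₂) - jK (ι u₂) * jK (ι v₁) ≠ 0 := by
        intro h0
        apply hne
        apply (jK).injective
        simp only [map_sub, map_mul, map_zero]
        exact h0
      have hA : r₃ + r₄ = ι A / ι Cc := by
        apply (jK).injective
        rw [map_add, hs, sumNum, hb2, hb4, hb6, e₁, e₂, map_div₀, map_div₀, map_div₀]
        simp only [A, Cc, map_add, map_sub, map_mul, map_pow, map_ofNat]
        field_simp
      have hB : r₃ * r₄ = ι B / ι Cc := by
        apply (jK).injective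
        rw [map_mul, hp, prodNum, hb4, hb6, hb8, e₁, e₂, map_div₀, map_div₀, map_div₀]
        simp only [B, Cc, map_add, map_sub, map_mul, map_pow]
        field_simp
      refine le_trans (rdeg_add_rdeg_le hC hA hB) ?_
      have d1 : u₁.natDegree ≤ rdeg r₁ := le_max_left _ _
      have d2 : v₁.natDegree ≤ rdeg r₁ := le_max_right _ _
      have d3 : u₂.natDegree ≤ rdeg r₂ := le_max_left _ _
      have d4 : v₂.natDegree ≤ rdeg r₂ := le_max_right _ _
      set a := rdeg r₁
      set b := rdeg r₂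
      have huu : (u₁ * u₂).natDegree ≤ a + b := natDegree_mul_le.trans (by omega)
      have hvv : (v₁ * v₂).natDegree ≤ a + b := natDegree_mul_le.trans (by omega)
      have hsum : (u₁ * v₂ + u₂ * v₁).natDegree ≤ a + b :=
        (natDegree_add_le _ _).trans (max_le (natDegree_mul_le.trans (by omega))
          (natDegree_mul_le.trans (by omega)))
      have hdiff : (u₁ * v₂ - u₂ * v₁).natDegree ≤ a + b :=
        (natDegree_sub_le _ _).trans (max_le (natDegree_mul_le.trans (by omega))
          (natDegree_mul_le.trans (by omega)))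
      have hmul : ∀ p q : k[X], p.natDegree ≤ a + b → q.natDegree ≤ a + b →
          (p * q).natDegree ≤ 2 * a + 2 * b := fun p q hp hq =>
        natDegree_mul_le.trans (by omega)
      have hCm : ∀ (c : k) (p : k[X]), p.natDegree ≤ 2 * a + 2 * b →
          (C c * p).natDegree ≤ 2 * a + 2 * b := fun c p hp => (natDegree_C_mul_le c p).trans hp
      refine max_le ?_ (max_le ?_ ?_)
      · refine natDegree_add_le_of_degree_le (natDegree_add_le_of_degree_le
          (natDegree_add_le_of_degree_le ?_ ?_) ?_) ?_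
        · rw [mul_assoc, mul_assoc, ← mul_assoc u₁,
            show (2 : k[X]) = C 2 from (map_ofNat C 2).symm]
          exact hCm _ _ (hmul _ _ huu hsum)
        · rw [show C W.b₂ * u₁ * u₂ * v₁ * v₂ = C W.b₂ * ((u₁ * u₂) * (v₁ * v₂)) by ring]
          exact hCm _ _ (hmul _ _ huu hvv)
        · rw [mul_assoc]; exact hCm _ _ (hmul _ _ hsum hvv)
        · rw [pow_two]; exact hCm _ _ (hmul _ _ hvv hvv)
      · refine (natDegree_sub_le _ _).trans (max_le ((natDegree_sub_le _ _).trans
          (max_le ((natDegree_sub_le _ _).trans (max_le ?_ ?_)) ?_)) ?_)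
        · rw [pow_two]; exact hmul _ _ huu huu
        · rw [mul_assoc]; exact hCm _ _ (hmul _ _ huu hvv)
        · rw [mul_assoc]; exact hCm _ _ (hmul _ _ hsum hvv)
        · rw [pow_two]; exact hCm _ _ (hmul _ _ hvv hvv)
      · show ((u₁ * v₂ - u₂ * v₁) ^ 2).natDegree ≤ _
        rw [pow_two]; exact hmul _ _ hdiff hdiff

/-- The exact parallelogram law for `ptDeg`. -/
theorem ptDeg_parallelogram {M : AddSubgroup (W⁄K).Point} (hM : HasRatX M)
    {P Q : (W⁄K).Point} (hP : P ∈ M) (hQ : Q ∈ M) :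
    ptDeg (P + Q) + ptDeg (P - Q) = 2 * ptDeg P + 2 * ptDeg Q := by
  refine le_antisymm (ptDeg_add_add_ptDeg_sub_le hM hP hQ) ?_
  have h := ptDeg_add_add_ptDeg_sub_le hM (M.add_mem hP hQ) (M.sub_mem hP hQ)
  rw [show P + Q + (P - Q) = P + P by abel, show P + Q - (P - Q) = Q + Q by abel,
    ptDeg_two_nsmul hM hP, ptDeg_two_nsmul hM hQ] at h
  omega

end Fermat.Agent.ECFrob
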