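import Mathlib.Algebra.Group.Hom.Basic
import Mathlib.Tactic.Abel
import Mathlib.Tactic.LinearCombination
import Mathlib.Tactic.Ring

/-!
# Integer valued functions satisfying the parallelogram law
-/

set_option autoImplicit false

namespace Fermat.Agent.ECFrob

variable {G : Type*} [AddCommGroup G] (d : G → ℤ)

/-- The polar form. -/
def polarFn (u v : G) : ℤ := d (u + v) - d u - d v

variable {d} (hd : ∀ u v, d (u + v) + d (u - v) = 2 * d u + 2 * d v)

include hd

lemma polarFn_add_left (u v w : G) : polarFn d (u + v) w = polarFn d u w + polarFn d v w := by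
  have h1 := hd (u + v) w
  have h2 := hd (u - w) v
  have h3 := hd u (v + w)
  have h4 := hd u w
  rw [show u - w + v = u + v - w by abel, show u - w - v = u - v - w by abel] at h2
  rw [show u + (v + w) = u + v + w by abel, show u - (v + w) = u - v - w by abel] at h3
  simp only [polarFn]
  omega

lemma parallelogram_zero : d 0 = 0 := by
  have := hd 0 0
  simp at this
  omega

lemma parallelogram_neg (u : G) : d (-u) = d u := by
  have := hd 0 u
  simp [parallelogram_zero hd] at this
  omega

lemma polarFn_zsmul_left (n : ℤ) (u w : G) : polarFn d (n • u) w = n * polarFn d u w := by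
  have := map_zsmul (AddMonoidHom.mk' (fun u => polarFn d u w) (fun a b => polarFn_add_left hd a b w))
    n u
  simpa using this

omit hd in
lemma polarFn_comm (u v : G) : polarFn d u v = polarFn d v u := by
  simp only [polarFn, add_comm u v]; omega

lemma polarFn_self (u : G) : polarFn d u u = 2 * d u := by
  have h := hd u u
  simp [parallelogram_zero hd] at h
  simp only [polarFn]
  omega

lemma parallelogram_zsmul (n : ℤ) (u : G) : d (n • u) = n ^ 2 * d u := by
  have h := polarFn_self hd (n • u)
  rw [polarFn_zsmul_left hd, polarFn_comm, polarFn_zsmul_left hd, polarFn_self hd] at h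
  have h2 : 2 * d (n • u) = 2 * (n ^ 2 * d u) := by linear_combination -h
  exact mul_left_cancel₀ two_ne_zero h2

lemma parallelogram_zsmul_add_zsmul (m n : ℤ) (u v : G) :
    d (m • u + n • v) = m ^ 2 * d u + m * n * polarFn d u v + n ^ 2 * d v := by
  have h : polarFn d (m • u) (n • v) = m * n * polarFn d u v := by
    rw [polarFn_zsmul_left hd, polarFn_comm, polarFn_zsmul_left hd, polarFn_comm]; ring
  rw [polarFn, parallelogram_zsmul hd, parallelogram_zsmul hd] at h
  linear_combination h

lemma parallelogram_add_three (u v w : G) :
    d (u + v + w) =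
      d u + d v + d w + polarFn d u v + polarFn d u w + polarFn d v w := by
  have h := polarFn_add_left hd u v w
  simp only [polarFn] at h ⊢
  omega

end Fermat.Agent.ECFrob
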