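import Fermat.Agent.ECFrob.Count
import Fermat.Agent.ECFrob.QuadLaw
import Mathlib.FieldTheory.AlgebraicClosure

/-!
# The degree form on `ℤ + ℤ F` and the characteristic equation of Frobenius

`deg (m + n F) = m² + a m n + q n²` with `a = q + 1 - #E(k)`, so `a² ≤ 4q`, `F² - a F + q = 0` on
`E(Ω)` for every field `Ω` over `k`, and `m + n F` kills at most `deg (m + n F)` points.
-/

set_option autoImplicit false

noncomputable section

open Polynomial WeierstrassCurve
open scoped WeierstrassCurve.Affine

namespace Fermat.Agent.ECFrob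

variable {k : Type*} [Field k] (W : WeierstrassCurve k)

local notation "jK" => algebraMap (RatFunc k) (FnField W)
local notation "qk" => Nat.card k
local notation "G₀" => genPt W

lemma aeval_ne_zero_of_transcendental {A : Type*} [CommRing A] [Algebra k A] {x : A}
    (hx : Transcendental k x) {p : k[X]} (hp : p ≠ 0) : aeval x p ≠ 0 :=
  fun h => hp (transcendental_iff.mp hx p h)

lemma ratHom_eq_div {F : Type*} [Field F] [Algebra k F] {x : F} (hx : Transcendental k x)
    (r : RatFunc k) : ratHom x hx r = aeval x r.num / aeval x r.denom := by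
  conv_lhs => rw [← RatFunc.num_div_denom r, map_div₀, ratHom_algebraMap, ratHom_algebraMap]

variable [W.IsElliptic]

/-- Substituting a nonconstant point into a point multiplies degrees. -/
lemma exists_substHom {P : (W⁄(FnField W)).Point} (hP : P ∈ oddPts W) (hd : ptDeg P ≠ 0) :
    ∃ φ : FnField W →ₐ[k] FnField W, Affine.Point.map (W' := W) φ G₀ = P ∧
      ∀ Q ∈ oddPts W, ptDeg (Affine.Point.map (W' := W) φ Q) = ptDeg Q * ptDeg P := by
  match P, hP, hd with
  | 0, _, hd => exact absurd ptDeg_zero hd
  | .some x y h, hP, hd =>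
    obtain ⟨r, rfl⟩ := hasRatX_oddPts W x y h hP
    rw [ptDeg_some rfl h] at hd ⊢
    have htr := transcendental_of_rdeg_ne_zero hd
    have hx : Transcendental k (jK r) :=
      (transcendental_algebraMap_iff (jK).injective).mpr htr
    refine ⟨specHom W h hx, map_specHom_genPt W h hx, ?_⟩
    intro Q hQ
    match Q, hQ with
    | 0, _ => simp
    | .some x' y' h', hQ =>
      obtain ⟨r', rfl⟩ := hasRatX_oddPts W x' y' h' hQ
      rw [Affine.Point.map_some, ptDeg_some rfl h',
        ptDeg_some (r := aeval r r'.num / aeval r r'.denom) (by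
          rw [specHom_algebraMap, ratHom_eq_div, map_div₀, aeval_algebraMap_apply,
            aeval_algebraMap_apply]),
        rdeg_aeval_div (RatFunc.isCoprime_num_denom r') r
          (aeval_ne_zero_of_transcendental htr r'.denom_ne_zero)]
      rfl

variable [Finite k]

/-- `a = q + 1 - #E(k)`. -/
def aFrob : ℤ := (qk : ℤ) + 1 - (Nat.card W.toAffine.Point : ℤ)

/-- The degree form `m² + a m n + q n²`. -/
def degForm (m n : ℤ) : ℤ := m ^ 2 + aFrob W * m * n + (qk : ℤ) * n ^ 2

/-- The degree on odd points, as an integer valued function. -/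
def oddDeg (P : oddPts W) : ℤ := (ptDeg (P : (W⁄(FnField W)).Point) : ℤ)

omit [Finite k] in
lemma oddDeg_parallelogram (u v : oddPts W) :
    oddDeg W (u + v) + oddDeg W (u - v) = 2 * oddDeg W u + 2 * oddDeg W v := by
  simp only [oddDeg, AddSubgroup.coe_add, AddSubgroup.coe_sub]
  exact_mod_cast ptDeg_parallelogram (hasRatX_oddPts W) u.2 v.2

/-- The generic point as an odd point. -/
def genOdd : oddPts W := ⟨G₀, genPt_mem W⟩

/-- Its Frobenius image. -/
def frobGenOdd : oddPts W := ⟨frobPt W G₀, frobPt_mem_oddPts W (genPt_mem W)⟩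

omit [Finite k] in
lemma oddDeg_genOdd : oddDeg W (genOdd W) = 1 := by
  simp [oddDeg, genOdd, ptDeg_genPt]

lemma oddDeg_frobGenOdd : oddDeg W (frobGenOdd W) = qk := by
  simp [oddDeg, frobGenOdd, ptDeg_frobPt W (genPt_mem W), ptDeg_genPt]

lemma oddDeg_frobGenOdd_sub : oddDeg W (frobGenOdd W - genOdd W) =
    Nat.card W.toAffine.Point := by
  simp [oddDeg, frobGenOdd, genOdd, ptDeg_frobPt_sub_genPt]

lemma polarFn_gen_frob : polarFn (oddDeg W) (genOdd W) (frobGenOdd W) = aFrob W := by
  have h := oddDeg_parallelogram W (frobGenOdd W) (genOdd W)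
  rw [oddDeg_frobGenOdd_sub, oddDeg_frobGenOdd, oddDeg_genOdd] at h
  rw [polarFn, oddDeg_frobGenOdd, oddDeg_genOdd, aFrob, add_comm (genOdd W)]
  omega

lemma oddDeg_comb (m n : ℤ) :
    oddDeg W (m • genOdd W + n • frobGenOdd W) = degForm W m n := by
  rw [parallelogram_zsmul_add_zsmul (oddDeg_parallelogram W), polarFn_gen_frob, oddDeg_genOdd,
    oddDeg_frobGenOdd, degForm]
  ring

lemma ptDeg_comb (m n : ℤ) :
    (ptDeg (m • G₀ + n • frobPt W G₀) : ℤ) = degForm W m n := by
  rw [← oddDeg_comb]; rfl

lemma degForm_nonneg (m n : ℤ) : 0 ≤ degForm W m n := by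
  rw [← oddDeg_comb]; exact Int.natCast_nonneg _

/-- The Hasse bound. -/
theorem aFrob_sq_le : aFrob W ^ 2 ≤ 4 * (qk : ℤ) := by
  have h := degForm_nonneg W (-aFrob W) 2
  rw [degForm] at h
  linarith

lemma ptDeg_frobPt_frobPt_sub :
    (ptDeg (frobPt W (frobPt W G₀) - G₀) : ℤ) = ((qk : ℤ) + 1) ^ 2 - aFrob W ^ 2 := by
  have hadd : (ptDeg (G₀ + frobPt W G₀) : ℤ) = (qk : ℤ) + 1 + aFrob W := by
    have := ptDeg_comb W 1 1
    rw [one_zsmul, one_zsmul, degForm] at this
    rw [this]; ring
  have hne : ptDeg (G₀ + frobPt W G₀) ≠ 0 := by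
    intro h0
    rw [h0] at hadd
    have h1 := aFrob_sq_le W
    have h2 : (2 : ℤ) ≤ qk := by exact_mod_cast two_le_qk (k := k)
    push_cast at hadd
    nlinarith
  obtain ⟨φ, hφ, hdeg⟩ := exists_substHom W
    ((oddPts W).add_mem (genPt_mem W) (frobPt_mem_oddPts W (genPt_mem W))) hne
  have := hdeg _ ((oddPts W).sub_mem (frobPt_mem_oddPts W (genPt_mem W)) (genPt_mem W))
  rw [map_sub, map_frobPt, hφ, map_add, ptDeg_frobPt_sub_genPt] at this
  rw [show frobPt W G₀ + frobPt W (frobPt W G₀) - (G₀ + frobPt W G₀)
    = frobPt W (frobPt W G₀) - G₀ by abel] at this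
  rw [this, Nat.cast_mul, hadd, aFrob]
  ring

/-- `F² - a F + q`. -/
def frobRel (F : Type*) [Field F] [Algebra k F] [DecidableEq F] :
    (W⁄F).Point →+ (W⁄F).Point :=
  AddMonoidHom.mk' (fun P => frobPt W (frobPt W P) - aFrob W • frobPt W P + (qk : ℤ) • P)
    fun P Q => by simp only [map_add, zsmul_add]; abel

omit [W.IsElliptic] in
lemma frobRel_apply {F : Type*} [Field F] [Algebra k F] [DecidableEq F] (P : (W⁄F).Point) :
    frobRel W F P = frobPt W (frobPt W P) - aFrob W • frobPt W P + (qk : ℤ) • P := rfl

omit [W.IsElliptic] in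
lemma map_frobRel {F F' : Type*} [Field F] [Algebra k F] [DecidableEq F] [Field F'] [Algebra k F']
    [DecidableEq F'] (f : F →ₐ[k] F') (P : (W⁄F).Point) :
    Affine.Point.map f (frobRel W F P) = frobRel W F' (Affine.Point.map f P) := by
  simp only [frobRel_apply, map_add, map_sub, map_zsmul, map_frobPt]

/-- The relation at the generic point. -/
lemma frobRel_genPt : frobRel W (FnField W) G₀ = 0 := by
  set a := aFrob W
  have hG := genPt_mem W
  have hF := frobPt_mem_oddPts W hG
  have hFF := frobPt_mem_oddPts W hF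
  set T := frobRel W (FnField W) G₀ with hT
  have hTmem : T ∈ oddPts W := (oddPts W).add_mem
    ((oddPts W).sub_mem hFF ((oddPts W).zsmul_mem hF _)) ((oddPts W).zsmul_mem hG _)
  have hT0 : ptDeg T = 0 := by
    have hd := oddDeg_parallelogram W
    let FF : oddPts W := ⟨_, hFF⟩
    have e : oddDeg W (FF + (-a) • frobGenOdd W + (qk : ℤ) • genOdd W) = (ptDeg T : ℤ) := by
      simp only [oddDeg, FF, frobGenOdd, genOdd, AddSubgroup.coe_add, AddSubgroup.coe_zsmul,
        hT, frobRel_apply, neg_zsmul, ← sub_eq_add_neg]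
      rfl
    have hFFd : oddDeg W FF = (qk : ℤ) ^ 2 := by
      simp [oddDeg, FF, ptDeg_frobPt W hF, ptDeg_frobPt W hG, ptDeg_genPt, pow_two]
    have hBFF_F : polarFn (oddDeg W) FF (frobGenOdd W) = (qk : ℤ) * a := by
      have h1 : (ptDeg (frobPt W (frobPt W G₀ + G₀)) : ℤ) = (qk : ℤ) * (1 + a + qk) := by
        rw [ptDeg_frobPt W ((oddPts W).add_mem hF hG), Nat.cast_mul]
        have := ptDeg_comb W 1 1
        rw [one_zsmul, one_zsmul, add_comm, degForm] at this
        rw [this]; ring
      rw [polarFn, hFFd, oddDeg_frobGenOdd]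
      simp only [oddDeg, FF, frobGenOdd, AddSubgroup.coe_add]
      rw [← map_add, h1]; ring
    have hBFF_G : polarFn (oddDeg W) FF (genOdd W) = a ^ 2 - 2 * qk := by
      have h := hd FF (genOdd W)
      have hsub : oddDeg W (FF - genOdd W) = ((qk : ℤ) + 1) ^ 2 - a ^ 2 := ptDeg_frobPt_frobPt_sub W
      rw [hsub, hFFd, oddDeg_genOdd] at h
      rw [polarFn, hFFd, oddDeg_genOdd]
      linarith
    have key := parallelogram_add_three hd FF ((-a) • frobGenOdd W) ((qk : ℤ) • genOdd W)
    rw [e, parallelogram_zsmul hd, parallelogram_zsmul hd, hFFd, oddDeg_frobGenOdd, oddDeg_genOdd,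
      polarFn_comm FF, polarFn_zsmul_left hd, polarFn_comm (frobGenOdd W), hBFF_F,
      polarFn_comm FF, polarFn_zsmul_left hd, polarFn_comm (genOdd W), hBFF_G,
      polarFn_zsmul_left hd, polarFn_comm (frobGenOdd W), polarFn_zsmul_left hd,
      polarFn_gen_frob] at key
    have : (ptDeg T : ℤ) = 0 := by rw [key]; ring
    exact_mod_cast this
  -- `T` is constant and is fixed up to sign by substitution of `2G` and `3G`
  have hsubst : ∀ m : ℤ, m ≠ 0 → m • T = T ∨ m • T = -T := by
    intro m hm
    have hd0 : ptDeg (m • G₀) ≠ 0 := by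
      have h := ptDeg_comb W m 0
      rw [zero_zsmul, add_zero, degForm] at h
      intro h0; rw [h0] at h; push_cast at h
      exact hm (pow_eq_zero_iff two_ne_zero |>.mp (by linarith))
    obtain ⟨φ, hφ, -⟩ := exists_substHom W ((oddPts W).zsmul_mem hG m) hd0
    have hmT : Affine.Point.map (W' := W) φ T = m • T := by
      rw [hT, map_frobRel, hφ, map_zsmul]
    rw [← hmT]
    clear_value T
    match T, hTmem, hT0 with
    | 0, _, _ => exact Or.inl (map_zero _)
    | .some x y h, hTmem, hT0 =>
      obtain ⟨r, rfl⟩ := hasRatX_oddPts W x y h hTmem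
      rw [ptDeg_some rfl h] at hT0
      obtain ⟨c, rfl⟩ := exists_eq_C_of_rdeg_eq_zero hT0
      rw [Affine.Point.map_some]
      refine Affine.Point.X_eq_iff.mp ?_
      rw [← RatFunc.algebraMap_eq_C, ← IsScalarTower.algebraMap_apply, AlgHom.commutes]
  rcases hsubst 2 two_ne_zero with h | h
  · rw [two_zsmul, add_eq_left] at h; exact h
  · have h3 : (3 : ℤ) • T = 0 := by
      rw [show (3 : ℤ) = 2 + 1 from rfl, add_zsmul, h, one_zsmul, neg_add_cancel]
    rcases hsubst 3 three_ne_zero with h' | h'
    · rw [h3] at h'; exact h'.symm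
    · rw [h3] at h'; exact neg_eq_zero.mp h'.symm

section Generic

variable {F : Type*} [Field F] [Algebra k F] [DecidableEq F]

omit [Finite k] in
/-- Every point with transcendental `x` is the image of the generic point. -/
lemma exists_hom_of_transcendental {x y : F} (h : (W⁄F).Nonsingular x y)
    (hx : Transcendental k x) :
    ∃ φ : FnField W →ₐ[k] F,
      Affine.Point.map (W' := W) φ G₀ = (Affine.Point.some x y h : (W⁄F).Point) :=
  ⟨specHom W h hx, map_specHom_genPt W h hx⟩

variable (F)

/-- A big algebraically closed field with a point that is generic over `F`. -/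
abbrev Big : Type _ := AlgebraicClosure (RatFunc F)

instance instDecEqBig : DecidableEq (Big F) := Classical.decEq _

/-- The inclusion of `F`. -/
abbrev bigIncl : F →ₐ[k] Big F := IsScalarTower.toAlgHom k F (Big F)

/-- The transcendental element. -/
def bigX : Big F := algebraMap (RatFunc F) (Big F) RatFunc.X

omit [DecidableEq F] in
lemma transcendental_bigX : Transcendental F (bigX F) :=
  (transcendental_algebraMap_iff (algebraMap (RatFunc F) (Big F)).injective).mpr
    (transcendental_of_rdeg_ne_zero (by rw [rdeg_X]; exact one_ne_zero))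

variable {F}

omit [Finite k] [DecidableEq F] in
lemma exists_bigPt : ∃ y, (W⁄(Big F)).Nonsingular (bigX F) y := by
  set E := W⁄(Big F)
  obtain ⟨y, hy⟩ := IsAlgClosed.exists_root
    (p := X ^ 2 + C (E.a₁ * bigX F + E.a₃) * X -
      C (bigX F ^ 3 + E.a₂ * bigX F ^ 2 + E.a₄ * bigX F + E.a₆))
    (by
      intro hd
      have : (X ^ 2 + C (E.a₁ * bigX F + E.a₃) * X -
        C (bigX F ^ 3 + E.a₂ * bigX F ^ 2 + E.a₄ * bigX F + E.a₆)).natDegree = 2 := by
        compute_degree!
      rw [natDegree_eq_of_degree_eq_some (n := 0) (by exact_mod_cast hd)] at this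
      omega)
  refine ⟨y, (Affine.equation_iff_nonsingular_of_Δ_ne_zero (baseChange_Δ_ne_zero W _)).mp ?_⟩
  rw [Affine.equation_iff]
  simp only [IsRoot, eval_add, eval_sub, eval_pow, eval_X, eval_mul, eval_C] at hy
  linear_combination hy

/-- Points with coordinates algebraic over `F`. -/
def algPts : AddSubgroup (W⁄(Big F)).Point :=
  haveI : DecidableEq (algebraicClosure F (Big F)) := Classical.decEq _
  (Affine.Point.map (W' := W) ((algebraicClosure F (Big F)).val.restrictScalars k)).range

omit [Finite k] [DecidableEq F] [W.IsElliptic] in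
lemma algebraMap_algClosure (c : k) :
    algebraMap (algebraicClosure F (Big F)) (Big F)
      (algebraMap k (algebraicClosure F (Big F)) c) = algebraMap k (Big F) c := rfl

omit [Finite k] [DecidableEq F] [W.IsElliptic] in
lemma algebraMap_comp_algClosure :
    (algebraMap (algebraicClosure F (Big F)) (Big F)).comp
      (algebraMap k (algebraicClosure F (Big F))) = algebraMap k (Big F) := rfl

omit [Finite k] [DecidableEq F] [W.IsElliptic] in
lemma some_mem_algPts_iff {x y : Big F} (h : (W⁄(Big F)).Nonsingular x y) :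
    Affine.Point.some x y h ∈ algPts W ↔ IsAlgebraic F x := by
  let : DecidableEq (algebraicClosure F (Big F)) := Classical.decEq _
  constructor
  · rintro ⟨_ | ⟨x', y', h'⟩, hP⟩
    · rw [← Affine.Point.zero_def, map_zero] at hP
      exact absurd hP.symm (Affine.Point.some_ne_zero _)
    · rw [Affine.Point.map_some, Affine.Point.some.injEq] at hP
      rw [← hP.1]
      exact (mem_algebraicClosure_iff.mp x'.2)
  · intro hx
    let x' : algebraicClosure F (Big F) := ⟨x, mem_algebraicClosure_iff.mpr hx⟩
    have hint : IsIntegral (algebraicClosure F (Big F)) y := by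
      refine ⟨X ^ 2 + C (algebraMap k (algebraicClosure F (Big F)) W.a₁ * x' + algebraMap k (algebraicClosure F (Big F)) W.a₃) * X -
        C (x' ^ 3 + algebraMap k (algebraicClosure F (Big F)) W.a₂ * x' ^ 2 + algebraMap k (algebraicClosure F (Big F)) W.a₄ * x' + algebraMap k (algebraicClosure F (Big F)) W.a₆),
        ?_, ?_⟩
      · monicity!
      · have he := h.1
        rw [Affine.equation_iff] at he
        simp only [WeierstrassCurve.baseChange, WeierstrassCurve.map_a₁, WeierstrassCurve.map_a₂,
          WeierstrassCurve.map_a₃, WeierstrassCurve.map_a₄, WeierstrassCurve.map_a₆] at he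
        simp only [eval₂_sub, eval₂_add, eval₂_mul, eval₂_pow, eval₂_C, eval₂_X, map_add, map_mul,
          map_pow, algebraMap_algClosure]
        rw [show algebraMap (algebraicClosure F (Big F)) (Big F) x' = x from rfl]
        linear_combination he
    have hy : y ∈ algebraicClosure F (Big F) :=
      mem_algebraicClosure_iff.mpr (isIntegral_trans y hint).isAlgebraic
    exact ⟨.some x' ⟨y, hy⟩ ((W.toAffine.baseChange_nonsingular
      (f := (algebraicClosure F (Big F)).val.restrictScalars k)
      (Subtype.val_injective) x' ⟨y, hy⟩).mp h), rfl⟩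

omit [Finite k] in
lemma map_bigIncl_mem_algPts (Q : (W⁄F).Point) :
    Affine.Point.map (W' := W) (bigIncl (k := k) F) Q ∈ algPts W := by
  match Q with
  | 0 => rw [map_zero]; exact zero_mem _
  | .some x y h =>
    rw [Affine.Point.map_some, some_mem_algPts_iff]
    exact isAlgebraic_algebraMap x

omit [Finite k] [DecidableEq F] in
lemma exists_some_of_notMem_algPts {P : (W⁄(Big F)).Point} (hP : P ∉ algPts W) :
    ∃ (x y : Big F) (h : (W⁄(Big F)).Nonsingular x y),
      P = .some x y h ∧ Transcendental k x := by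
  match P, hP with
  | 0, hP => exact absurd (zero_mem _) hP
  | .some x y h, hP =>
    rw [some_mem_algPts_iff] at hP
    exact ⟨x, y, h, rfl, fun halg => hP (halg.extendScalars (algebraMap k F).injective)⟩

variable (F) in
omit [Finite k] [DecidableEq F] in
lemma exists_generic : ∃ (y : Big F) (h : (W⁄(Big F)).Nonsingular (bigX F) y),
    (Affine.Point.some (bigX F) y h : (W⁄(Big F)).Point) ∉ algPts W := by
  obtain ⟨y, h⟩ := exists_bigPt (F := F) W
  exact ⟨y, h, fun hm => transcendental_bigX F ((some_mem_algPts_iff W h).mp hm)⟩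

/-- **The characteristic equation of Frobenius.** -/
theorem frobPt_relation (P : (W⁄F).Point) :
    frobPt W (frobPt W P) - aFrob W • frobPt W P + (qk : ℤ) • P = 0 := by
  rw [← frobRel_apply]
  apply Affine.Point.map_injective (bigIncl (k := k) F)
  rw [map_frobRel, map_zero]
  obtain ⟨y, h, hG⟩ := exists_generic W F
  set G' : (W⁄(Big F)).Point := .some (bigX F) y h
  set Q := Affine.Point.map (W' := W) (bigIncl (k := k) F) P
  have hgen : ∀ R : (W⁄(Big F)).Point, R ∉ algPts W → frobRel W (Big F) R = 0 := by
    intro R hR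
    obtain ⟨x', y', h', rfl, hx'⟩ := exists_some_of_notMem_algPts W hR
    obtain ⟨φ, hφ⟩ := exists_hom_of_transcendental W h' hx'
    rw [← hφ, ← map_frobRel, frobRel_genPt, map_zero]
  have h1 := hgen _ hG
  have h2 := hgen (G' + Q) fun hm => hG (by
    simpa [Q] using (algPts W).sub_mem hm (map_bigIncl_mem_algPts W P))
  rw [map_add, h1, zero_add] at h2
  exact h2

/-- `m + n F` kills at most `degForm m n` points of `E(F)` if that degree is nonzero. -/
theorem card_le_degForm (m n : ℤ) (hd : degForm W m n ≠ 0) (S : Finset (W⁄F).Point)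
    (hS : ∀ T ∈ S, m • T + n • frobPt W T = 0) : (S.card : ℤ) ≤ degForm W m n := by
  classical
  obtain ⟨y, h, hG⟩ := exists_generic W F
  set G' : (W⁄(Big F)).Point := .some (bigX F) y h
  have hG2 : G' + G' ∉ algPts W := by
    intro hm
    apply transcendental_bigX F
    have hdd : dblDen (W⁄(Big F)) (bigX F) = 0 ∨ ∃ z, IsAlgebraic F z ∧
        dblNum (W⁄(Big F)) (bigX F) = z * dblDen (W⁄(Big F)) (bigX F) := by
      by_cases hy : y = (W⁄(Big F)).toAffine.negY (bigX F) y
      · left; rw [dblDen_eq_sq h.1, ← hy, sub_self, zero_pow two_ne_zero]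
      · right
        rw [Affine.Point.add_self_of_Y_ne hy, some_mem_algPts_iff] at hm
        refine ⟨_, hm, ?_⟩
        rw [addX_self h.1 hy, div_mul_cancel₀]
        rw [dblDen_eq_sq h.1]
        exact pow_ne_zero 2 (sub_ne_zero.mpr hy)
    rw [← aeval_dblDenPoly, ← aeval_dblNumPoly] at hdd
    have hext : ∀ {x : Big F}, IsAlgebraic k x → IsAlgebraic F x :=
      fun hx => hx.extendScalars (algebraMap k F).injective
    rcases hdd with h0 | ⟨z, hz, h0⟩
    · refine hext ⟨dblDenPoly W, fun h' => ?_, h0⟩
      have := isCoprime_dbl W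
      rw [h', isCoprime_zero_right] at this
      have := natDegree_eq_zero_of_isUnit this
      rw [natDegree_dblNumPoly] at this
      omega
    · let z' : (algebraicClosure F (Big F)) := ⟨z, mem_algebraicClosure_iff.mpr hz⟩
      have hint : IsIntegral (algebraicClosure F (Big F)) (bigX F) := by
        refine ⟨(dblNumPoly W).map (algebraMap k (algebraicClosure F (Big F))) - C z' * (dblDenPoly W).map (algebraMap k (algebraicClosure F (Big F))),
          ?_, ?_⟩
        · refine Monic.sub_of_left ((monic_of_natDegree_le_of_coeff_eq_one 4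
            (natDegree_dblNumPoly W).le (by simp [dblNumPoly])).map _) ?_
          refine lt_of_le_of_lt (degree_le_natDegree) ?_
          rw [degree_map, degree_eq_natDegree
            (show dblNumPoly W ≠ 0 from fun h' => by
              have := natDegree_dblNumPoly W; rw [h', natDegree_zero] at this; omega),
            natDegree_dblNumPoly]
          have := natDegree_C_mul_le z' ((dblDenPoly W).map (algebraMap k (algebraicClosure F (Big F))))
          have := (natDegree_map_le (f := algebraMap k (algebraicClosure F (Big F))) (p := dblDenPoly W)).trans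
            (natDegree_dblDenPoly_le W)
          exact_mod_cast (show (C z' * (dblDenPoly W).map (algebraMap k (algebraicClosure F (Big F)))).natDegree < 4 by omega)
        · rw [eval₂_sub, eval₂_mul, eval₂_C, eval₂_map, eval₂_map,
            algebraMap_comp_algClosure, ← aeval_def, ← aeval_def, h0]
          exact sub_self _
      exact (isIntegral_trans (bigX F) hint).isAlgebraic
  set u : (W⁄F).Point → (W⁄(Big F)).Point := fun T =>
    G' + Affine.Point.map (W' := W) (bigIncl (k := k) F) T with hu
  have hu_notMem : ∀ T, u T ∉ algPts W := fun T hm => hG (by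
    simpa [hu] using (algPts W).sub_mem hm (map_bigIncl_mem_algPts W T))
  choose xT yT hT hTeq hxT using fun T => exists_some_of_notMem_algPts W (hu_notMem T)
  -- the rational function giving `x` of the image
  set β := m • G₀ + n • frobPt W G₀ with hβ
  have hβmem : β ∈ oddPts W := (oddPts W).add_mem ((oddPts W).zsmul_mem (genPt_mem W) _)
    ((oddPts W).zsmul_mem (frobPt_mem_oddPts W (genPt_mem W)) _)
  have hβd : (ptDeg β : ℤ) = degForm W m n := ptDeg_comb W m n
  obtain ⟨r, yβ, hβns, hβeq⟩ : ∃ (r : RatFunc k) (yβ : FnField W) (hns : _),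
      β = .some (jK r) yβ hns := by
    clear_value β
    match β, hβmem, hβd with
    | 0, _, hβd => exact absurd hβd.symm (by simpa using hd)
    | .some x y' h', hβmem, _ =>
      obtain ⟨r, rfl⟩ := hasRatX_oddPts W x y' h' hβmem
      exact ⟨r, y', h', rfl⟩
  have hrd : (rdeg r : ℤ) = degForm W m n := by
    rw [← hβd, hβeq, ptDeg_some rfl hβns]
  have himage : ∀ T ∈ S, ∃ (v : Big F) (hv : _),
      m • G' + n • frobPt W G' = .some (aeval (xT T) r.num / aeval (xT T) r.denom) v hv := by
    intro T hTS
    have hker : m • G' + n • frobPt W G' = m • u T + n • frobPt W (u T) := by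
      have h0 : m • Affine.Point.map (W' := W) (bigIncl (k := k) F) T +
          n • frobPt W (Affine.Point.map (W' := W) (bigIncl (k := k) F) T) = 0 := by
        rw [← map_frobPt, ← map_zsmul, ← map_zsmul, ← map_add, hS T hTS, map_zero]
      simp only [hu, map_add, zsmul_add]
      rw [show m • G' + m • Affine.Point.map (W' := W) (bigIncl (k := k) F) T +
          (n • frobPt W G' + n • frobPt W (Affine.Point.map (W' := W) (bigIncl (k := k) F) T)) =
          m • G' + n • frobPt W G' + (m • Affine.Point.map (W' := W) (bigIncl (k := k) F) T +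
          n • frobPt W (Affine.Point.map (W' := W) (bigIncl (k := k) F) T)) by abel, h0, add_zero]
    refine ⟨specHom W (hT T) (hxT T) yβ, ?_, ?_⟩
    rotate_left
    · rw [hker, hTeq T, ← map_specHom_genPt W (hT T) (hxT T), ← map_frobPt, ← map_zsmul,
        ← map_zsmul, ← map_add, ← hβ, hβeq, Affine.Point.map_some]
      simp [specHom_algebraMap, ratHom_eq_div, -AdjoinRoot.algebraMap_eq]
    · have hns := (W.toAffine.baseChange_nonsingular (f := specHom W (hT T) (hxT T))
        (specHom W (hT T) (hxT T)).injective (jK r) yβ).mpr hβns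
      rwa [specHom_algebraMap, ratHom_eq_div] at hns
  rcases S.eq_empty_or_nonempty with rfl | ⟨T₀, hT₀⟩
  · simpa using degForm_nonneg W m n
  obtain ⟨v₀, hv₀, he₀⟩ := himage T₀ hT₀
  set ξ₀ := aeval (xT T₀) r.num / aeval (xT T₀) r.denom with hξ₀
  let P : (Big F)[X] := r.num.map (algebraMap k (Big F)) - C ξ₀ * r.denom.map (algebraMap k (Big F))
  have hP0 : P ≠ 0 := by
    intro hP
    have hc := (RatFunc.isCoprime_num_denom r).map (mapRingHom (algebraMap k (Big F)))
    simp only [coe_mapRingHom] at hc
    rw [sub_eq_zero.mp hP] at hc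
    have hu' : IsUnit (r.denom.map (algebraMap k (Big F))) :=
      hc.isUnit_of_dvd' (dvd_mul_left _ _) dvd_rfl
    have hd0 := natDegree_eq_zero_of_isUnit hu'
    have hn0 : (r.num.map (algebraMap k (Big F))).natDegree = 0 := by
      rw [sub_eq_zero.mp hP]
      exact Nat.le_zero.mp ((natDegree_C_mul_le _ _).trans hd0.le)
    rw [natDegree_map] at hd0 hn0
    apply hd
    rw [← hrd, rdeg, hd0, hn0]; rfl
  have hPdeg : (P.natDegree : ℤ) ≤ degForm W m n := by
    rw [← hrd]
    refine Int.ofNat_le.mpr ((natDegree_sub_le _ _).trans (max_le ?_ ?_))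
    · rw [natDegree_map]; exact le_max_left _ _
    · exact (natDegree_C_mul_le _ _).trans (by rw [natDegree_map]; exact le_max_right _ _)
  refine le_trans ?_ hPdeg
  refine Int.ofNat_le.mpr (le_trans ?_ ((Multiset.toFinset_card_le _).trans (card_roots' P)))
  refine Finset.card_le_card_of_injOn xT (fun T hTS => ?_) (fun T hTS T' hTS' he => ?_)
  · obtain ⟨v, hv, e⟩ := himage T hTS
    rw [he₀, Affine.Point.some.injEq] at e
    simp only [Finset.mem_coe, Multiset.mem_toFinset, mem_roots hP0, IsRoot, P, eval_sub, eval_mul,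
      eval_C, eval_map_algebraMap]
    rw [hξ₀, e.1, div_mul_cancel₀ _ (aeval_ne_zero_of_transcendental (hxT T) r.denom_ne_zero), sub_self]
  · have hcase : u T = u T' ∨ u T = -u T' := by
      rw [hTeq T, hTeq T']; exact Affine.Point.X_eq_iff.mp he
    rcases hcase with h' | h'
    · exact Affine.Point.map_injective _ (add_left_cancel h')
    · exfalso; apply hG2
      have : G' + G' = -(Affine.Point.map (W' := W) (bigIncl (k := k) F) T +
          Affine.Point.map (W' := W) (bigIncl (k := k) F) T') := by
        rw [← sub_eq_zero, ← sub_eq_zero.mpr h']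
        simp only [hu]; abel
      rw [this]
      exact neg_mem (add_mem (map_bigIncl_mem_algPts W T) (map_bigIncl_mem_algPts W T'))

end Generic

end Fermat.Agent.ECFrob
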