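import Fermat.Agent.ECFrob.FunField
import Mathlib.FieldTheory.Finite.Basic
import Mathlib.SetTheory.Cardinal.NatCard

/-!
# The Frobenius endomorphism over a finite field
-/

set_option autoImplicit false

noncomputable section

open Polynomial WeierstrassCurve
open scoped WeierstrassCurve.Affine

namespace Fermat.Agent.ECFrob

variable (k : Type*) [Field k] [Finite k] (F : Type*) [Field F] [Algebra k F]

/-- `z ↦ z ^ #k` as a `k`-algebra endomorphism. -/
def frobAlg : F →ₐ[k] F :=
  haveI := Fintype.ofFinite k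
  FiniteField.frobeniusAlgHom k F

lemma frobAlg_apply (z : F) : frobAlg k F z = z ^ Nat.card k := by
  simp only [frobAlg, FiniteField.coe_frobeniusAlgHom]
  rw [@Nat.card_eq_fintype_card k (Fintype.ofFinite k)]

lemma comp_frobAlg {F' : Type*} [Field F'] [Algebra k F'] (f : F →ₐ[k] F') :
    f.comp (frobAlg k F) = (frobAlg k F').comp f := by
  ext z; simp [frobAlg_apply]

variable {k F} (W : WeierstrassCurve k)

/-- The Frobenius endomorphism on points. -/
def frobPt [DecidableEq F] : (W⁄F).Point →+ (W⁄F).Point := Affine.Point.map (frobAlg k F)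

lemma frobPt_some [DecidableEq F] {x y : F} (h : (W⁄F).Nonsingular x y) :
    ∃ h', frobPt W (Affine.Point.some x y h : (W⁄F).Point) =
      Affine.Point.some (x ^ Nat.card k) (y ^ Nat.card k) h' := by
  have h' : (W⁄F).Nonsingular (x ^ Nat.card k) (y ^ Nat.card k) := by
    rw [← frobAlg_apply, ← frobAlg_apply]
    exact (W.toAffine.baseChange_nonsingular (frobAlg k F).injective ..).mpr h
  refine ⟨h', ?_⟩
  rw [frobPt, Affine.Point.map_some]
  simp [frobAlg_apply]

lemma map_frobPt {F' : Type*} [Field F'] [Algebra k F'] [DecidableEq F] [DecidableEq F']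
    (f : F →ₐ[k] F') (P : (W⁄F).Point) :
    Affine.Point.map f (frobPt W P) = frobPt W (Affine.Point.map f P) := by
  rw [frobPt, frobPt, Affine.Point.map_map, Affine.Point.map_map, comp_frobAlg]

variable [W.IsElliptic]

lemma frobPt_mem_oddPts {P : (W⁄(FnField W)).Point} (hP : P ∈ oddPts W) :
    frobPt W P ∈ oddPts W := by
  rw [mem_oddPts_iff] at hP ⊢
  rw [map_frobPt, hP, map_neg]

lemma ptDeg_frobPt {P : (W⁄(FnField W)).Point} (hP : P ∈ oddPts W) :
    ptDeg (frobPt W P) = Nat.card k * ptDeg P := by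
  match P, hP with
  | 0, _ => simp
  | .some x y h, hP =>
    obtain ⟨r, rfl⟩ := hasRatX_oddPts W x y h hP
    obtain ⟨h', e⟩ := frobPt_some W h
    rw [e, ptDeg_some (map_pow _ r _) h', ptDeg_some rfl h, rdeg_pow]

end Fermat.Agent.ECFrob
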