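import Fermat.Agent.ECFrob.DegLaw
import Mathlib.RingTheory.AdjoinRoot
import Mathlib.RingTheory.Polynomial.GaussLemma
import Mathlib.RingTheory.Algebraic.Basic

/-!
# The function field of an elliptic curve and its generic point

`FnField W = k(X)[Y]/(Weierstrass polynomial)`, its generic point, the involution `conj`, the
subgroup of odd points (whose `x`-coordinates are in `k(X)`) and specialization homomorphisms.
-/

set_option autoImplicit false

noncomputable section

open Polynomial WeierstrassCurve
open scoped WeierstrassCurve.Affine nonZeroDivisors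

namespace Fermat.Agent.ECFrob

variable {k : Type*} [Field k] (W : WeierstrassCurve k)

local notation "ι" => algebraMap (Polynomial k) (RatFunc k)

/-- The Weierstrass polynomial over `k(X)`. -/
abbrev fnPoly : (RatFunc k)[X] :=
  W.toAffine.polynomial.map (algebraMap (Polynomial k) (RatFunc k))

lemma monic_fnPoly : (fnPoly W).Monic := Affine.monic_polynomial.map _

lemma irreducible_fnPoly : Irreducible (fnPoly W) :=
  (Affine.monic_polynomial.irreducible_iff_irreducible_map_fraction_map
    (K := RatFunc k)).mp Affine.irreducible_polynomial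

instance instFactIrreducibleFnPoly : Fact (Irreducible (fnPoly W)) :=
  ⟨irreducible_fnPoly W⟩

/-- The function field of `W`. -/
abbrev FnField : Type _ := AdjoinRoot (fnPoly W)

instance instDecEqFnField : DecidableEq (FnField W) := Classical.decEq _

/-- The generic `x`-coordinate. -/
def genX : FnField W := algebraMap (RatFunc k) (FnField W) RatFunc.X

/-- The generic `y`-coordinate. -/
def genY : FnField W := AdjoinRoot.root (fnPoly W)

lemma fnPoly_eq : fnPoly W = X ^ 2
      + C (RatFunc.C W.a₁ * RatFunc.X + RatFunc.C W.a₃) * X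
      - C (RatFunc.X ^ 3 + RatFunc.C W.a₂ * RatFunc.X ^ 2 + RatFunc.C W.a₄ * RatFunc.X
          + RatFunc.C W.a₆) := by
  simp [fnPoly, Affine.polynomial, Polynomial.map_sub, Polynomial.map_add, Polynomial.map_mul,
    Polynomial.map_pow]

/-- A root of `fnPoly` over an image of `k(X)` gives a point on the curve, and conversely. -/
lemma eval₂_fnPoly_eq_zero_iff {F : Type*} [Field F] [Algebra k F] (i : RatFunc k →ₐ[k] F)
    (y : F) : (fnPoly W).eval₂ (i : RatFunc k →+* F) y = 0 ↔
      (W⁄F).toAffine.Equation (i RatFunc.X) y := by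
  rw [fnPoly_eq, Affine.equation_iff]
  simp only [eval₂_sub, eval₂_add, eval₂_mul, eval₂_pow, eval₂_C, eval₂_X, RingHom.coe_coe,
    map_add, map_mul, map_pow, ← RatFunc.algebraMap_eq_C, AlgHom.commutes,
    WeierstrassCurve.baseChange, WeierstrassCurve.map_a₁, WeierstrassCurve.map_a₂,
    WeierstrassCurve.map_a₃, WeierstrassCurve.map_a₄, WeierstrassCurve.map_a₆]
  constructor <;> intro h <;> linear_combination h

/-- The inclusion of `k(X)` in the function field. -/
abbrev incl : RatFunc k →ₐ[k] FnField W := IsScalarTower.toAlgHom k (RatFunc k) (FnField W)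

lemma gen_equation : (W⁄(FnField W)).toAffine.Equation (genX W) (genY W) := by
  refine (eval₂_fnPoly_eq_zero_iff W (incl W) (genY W)).mp ?_
  exact AdjoinRoot.eval₂_root (fnPoly W)

lemma exists_eq_add_mul_genY (z : FnField W) : ∃ c₀ c₁ : RatFunc k,
    z = algebraMap _ _ c₀ + algebraMap _ _ c₁ * genY W := by
  obtain ⟨q, rfl⟩ := AdjoinRoot.mk_surjective z
  set r := q %ₘ fnPoly W with hr
  have hq : AdjoinRoot.mk (fnPoly W) q = AdjoinRoot.mk (fnPoly W) r := by
    rw [AdjoinRoot.mk_eq_mk]
    exact ⟨q /ₘ fnPoly W, by linear_combination -(modByMonic_add_div q (fnPoly W))⟩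
  have hdeg : r.degree ≤ 1 := by
    have h2 : (fnPoly W).degree = 2 := by
      rw [fnPoly, Affine.monic_polynomial.degree_map, Affine.degree_polynomial]
    have := degree_modByMonic_lt q (monic_fnPoly W)
    rw [h2, ← hr] at this
    exact Order.le_of_lt_succ this
  refine ⟨r.coeff 0, r.coeff 1, ?_⟩
  rw [hq]
  conv_lhs => rw [eq_X_add_C_of_degree_le_one hdeg]
  simp only [map_add, map_mul, AdjoinRoot.mk_C, AdjoinRoot.mk_X, genY, AdjoinRoot.algebraMap_eq]
  ring

lemma eq_zero_of_add_mul_genY_eq_zero {c₀ c₁ : RatFunc k}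
    (h : algebraMap _ (FnField W) c₀ + algebraMap _ (FnField W) c₁ * genY W = 0) :
    c₀ = 0 ∧ c₁ = 0 := by
  have h' : AdjoinRoot.mk (fnPoly W) (C c₁ * X + C c₀) = 0 := by
    simp only [map_add, map_mul, AdjoinRoot.mk_C, AdjoinRoot.mk_X]
    simpa [genY, add_comm] using h
  rw [AdjoinRoot.mk_eq_zero] at h'
  have h0 := eq_zero_of_dvd_of_degree_lt h' (lt_of_le_of_lt degree_linear_le (by
    rw [fnPoly, Affine.monic_polynomial.degree_map, Affine.degree_polynomial]; decide))
  exact ⟨by simpa using congr_arg (coeff · 0) h0, by simpa using congr_arg (coeff · 1) h0⟩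

lemma equation_negY_gen :
    (W⁄(FnField W)).toAffine.Equation (genX W) ((W⁄(FnField W)).toAffine.negY (genX W) (genY W)) :=
  (Affine.equation_neg _ _).mpr (gen_equation W)

/-- The nontrivial automorphism of the function field over `k(X)`. -/
def conj : FnField W →ₐ[RatFunc k] FnField W :=
  AdjoinRoot.liftAlgHom (fnPoly W) (Algebra.ofId (RatFunc k) (FnField W))
    ((W⁄(FnField W)).toAffine.negY (genX W) (genY W))
    ((eval₂_fnPoly_eq_zero_iff W (incl W) _).mpr (equation_negY_gen W))

lemma conj_genY : conj W (genY W) = (W⁄(FnField W)).toAffine.negY (genX W) (genY W) := by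
  simp [conj, genY]

/-- `conj` as a `k`-algebra map. -/
abbrev conjK : FnField W →ₐ[k] FnField W := (conj W).restrictScalars k

variable [W.IsElliptic]

lemma baseChange_Δ_ne_zero (F : Type*) [Field F] [Algebra k F] : (W⁄F).Δ ≠ 0 := by
  simp [WeierstrassCurve.baseChange, W.isUnit_Δ.ne_zero]

lemma gen_nonsingular : (W⁄(FnField W)).toAffine.Nonsingular (genX W) (genY W) :=
  (Affine.equation_iff_nonsingular_of_Δ_ne_zero (baseChange_Δ_ne_zero W _)).mp (gen_equation W)

/-- The generic point. -/
def genPt : (W⁄(FnField W)).Point := .some _ _ (gen_nonsingular W)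

lemma two_mul_genY_add_ne_zero :
    2 * genY W + algebraMap k _ W.a₁ * genX W + algebraMap k _ W.a₃ ≠ 0 := by
  intro h
  have h' : algebraMap (RatFunc k) (FnField W) (RatFunc.C W.a₁ * RatFunc.X + RatFunc.C W.a₃)
      + algebraMap (RatFunc k) (FnField W) 2 * genY W = 0 := by
    rw [map_add, map_mul, ← RatFunc.algebraMap_eq_C,
      ← IsScalarTower.algebraMap_apply, ← IsScalarTower.algebraMap_apply, map_ofNat]
    linear_combination (norm := (simp only [genX]; ring)) h
  obtain ⟨h0, h2⟩ := eq_zero_of_add_mul_genY_eq_zero W h'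
  have h2k : (2 : k) = 0 := by
    apply (RatFunc.C : k →+* RatFunc k).injective
    rw [map_ofNat, map_zero]; exact h2
  have hp : C W.a₁ * X + C W.a₃ = 0 := by
    apply RatFunc.algebraMap_injective k
    simpa using h0
  have ha₁ : W.a₁ = 0 := by simpa using congr_arg (coeff · 1) hp
  have ha₃ : W.a₃ = 0 := by simpa using congr_arg (coeff · 0) hp
  refine W.isUnit_Δ.ne_zero ?_
  simp only [WeierstrassCurve.Δ, WeierstrassCurve.b₂, WeierstrassCurve.b₄, WeierstrassCurve.b₆,
    WeierstrassCurve.b₈, ha₁, ha₃]
  linear_combination (-8 * W.a₂ ^ 2 * (4 * W.a₂ * W.a₆ - W.a₄ ^ 2) - 32 * W.a₄ ^ 3 * 1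
    - 216 * W.a₆ ^ 2 + 144 * W.a₂ * W.a₄ * W.a₆ + 0) * h2k

omit [W.IsElliptic] in
lemma conj_eq_iff_mem_range [W.IsElliptic] (z : FnField W) :
    conj W z = z ↔ z ∈ Set.range (algebraMap (RatFunc k) (FnField W)) := by
  constructor
  · intro h
    obtain ⟨c₀, c₁, rfl⟩ := exists_eq_add_mul_genY W z
    rw [map_add, map_mul, AlgHom.commutes, AlgHom.commutes, conj_genY] at h
    have : algebraMap (RatFunc k) (FnField W) c₁ *
        (2 * genY W + algebraMap k _ W.a₁ * genX W + algebraMap k _ W.a₃) = 0 := by
      simp only [Affine.negY, WeierstrassCurve.baseChange, WeierstrassCurve.map_a₁,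
        WeierstrassCurve.map_a₃] at h
      linear_combination -h
    rw [mul_eq_zero, or_iff_left (two_mul_genY_add_ne_zero W), map_eq_zero] at this
    exact ⟨c₀, by simp [this]⟩
  · rintro ⟨c, rfl⟩
    exact AlgHom.commutes _ _

/-- The subgroup of points `P` with `conj P = -P`. -/
def oddPts : AddSubgroup (W⁄(FnField W)).Point :=
  ((Affine.Point.map (W' := W) (conjK W)) + AddMonoidHom.id _).ker

lemma mem_oddPts_iff (P : (W⁄(FnField W)).Point) :
    P ∈ oddPts W ↔ Affine.Point.map (W' := W) (conjK W) P = -P := by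
  rw [oddPts, AddMonoidHom.mem_ker, AddMonoidHom.add_apply, AddMonoidHom.id_apply,
    add_eq_zero_iff_eq_neg]

lemma genPt_mem : genPt W ∈ oddPts W := by
  rw [mem_oddPts_iff, genPt, Affine.Point.map_some, Affine.Point.neg_some]
  simp only [Affine.Point.some.injEq]
  exact ⟨(conj W).commutes RatFunc.X, conj_genY W⟩

lemma hasRatX_oddPts : HasRatX (oddPts W) := by
  intro x y h hP
  rw [mem_oddPts_iff, Affine.Point.map_some, Affine.Point.neg_some,
    Affine.Point.some.injEq] at hP
  exact (conj_eq_iff_mem_range W x).mp hP.1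

lemma ptDeg_genPt : ptDeg (genPt W) = 1 := by
  exact (ptDeg_some (r := RatFunc.X) rfl _).trans rdeg_X

/-! ### Specialization -/

section Spec

variable {F : Type*} [Field F] [Algebra k F]

omit [W.IsElliptic] in
lemma comap_of_transcendental {x : F} (hx : Transcendental k x) :
    (Polynomial k)⁰ ≤ Submonoid.comap (aeval (R := k) x) F⁰ :=
  nonZeroDivisors_le_comap_nonZeroDivisors_of_injective _ (transcendental_iff_injective.mp hx)

/-- The `k`-algebra map `k(X) → F` with `X ↦ x`, for `x` transcendental over `k`. -/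
def ratHom (x : F) (hx : Transcendental k x) : RatFunc k →ₐ[k] F :=
  RatFunc.liftAlgHom (aeval x) (comap_of_transcendental hx)

omit [W.IsElliptic] in
lemma ratHom_algebraMap {x : F} (hx : Transcendental k x) (p : k[X]) :
    ratHom x hx (ι p) = aeval x p := by
  have := RatFunc.liftAlgHom_apply_div (φ := aeval (R := k) x) (comap_of_transcendental hx) p 1
  simpa [ratHom] using this

omit [W.IsElliptic] in
lemma ratHom_X {x : F} (hx : Transcendental k x) : ratHom x hx RatFunc.X = x := by
  rw [← RatFunc.algebraMap_X, ratHom_algebraMap, aeval_X]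

/-- The `k`-algebra map from the function field sending the generic point to `(x, y)`. -/
def specHom {x y : F} (h : (W⁄F).toAffine.Nonsingular x y) (hx : Transcendental k x) :
    FnField W →ₐ[k] F :=
  AdjoinRoot.liftAlgHom (fnPoly W) (ratHom x hx) y
    ((eval₂_fnPoly_eq_zero_iff W (ratHom x hx) y).mpr (by rw [ratHom_X]; exact h.1))

omit [W.IsElliptic] in
lemma specHom_algebraMap {x y : F} (h : (W⁄F).toAffine.Nonsingular x y) (hx : Transcendental k x)
    (r : RatFunc k) : specHom W h hx (algebraMap _ _ r) = ratHom x hx r := by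
  simp [specHom, AdjoinRoot.algebraMap_eq]

omit [W.IsElliptic] in
lemma specHom_genX {x y : F} (h : (W⁄F).toAffine.Nonsingular x y) (hx : Transcendental k x) :
    specHom W h hx (genX W) = x := by
  rw [genX, specHom_algebraMap, ratHom_X]

omit [W.IsElliptic] in
lemma specHom_genY {x y : F} (h : (W⁄F).toAffine.Nonsingular x y) (hx : Transcendental k x) :
    specHom W h hx (genY W) = y := by
  simp [specHom, genY]

variable [DecidableEq F]

lemma map_specHom_genPt {x y : F} (h : (W⁄F).toAffine.Nonsingular x y)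
    (hx : Transcendental k x) :
    Affine.Point.map (W' := W) (specHom W h hx) (genPt W) =
      (Affine.Point.some x y h : (W⁄F).Point) := by
  rw [genPt, Affine.Point.map_some]
  simp only [Affine.Point.some.injEq]
  exact ⟨specHom_genX W h hx, specHom_genY W h hx⟩

end Spec

end Fermat.Agent.ECFrob
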