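import Mathlib.FieldTheory.RatFunc.Basic
import Mathlib.FieldTheory.RatFunc.AsPolynomial
import Mathlib.Algebra.Polynomial.AlgebraMap

/-!
# The degree of a rational function

`rdeg r = max (deg num) (deg denom)`. Main facts: it is computed by any coprime representation and
bounded by any representation; a sum/product inequality for a pair of rational functions; and
multiplicativity under composition.
-/

set_option autoImplicit false

noncomputable section

open Polynomial

namespace Fermat.Agent.ECFrob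

variable {k : Type*} [Field k]

local notation "ι" => algebraMap (Polynomial k) (RatFunc k)

/-- The degree of a rational function as a map `ℙ¹ → ℙ¹`. -/
def rdeg (r : RatFunc k) : ℕ := max r.num.natDegree r.denom.natDegree

lemma iota_ne_zero {p : k[X]} (hp : p ≠ 0) : ι p ≠ 0 :=
  RatFunc.algebraMap_ne_zero hp

lemma exists_factor_of_eq_div {r : RatFunc k} {A B : k[X]} (hB : B ≠ 0)
    (h : r = ι A / ι B) : ∃ g : k[X], g ≠ 0 ∧ A = g * r.num ∧ B = g * r.denom := by
  obtain ⟨g, hg⟩ : r.denom ∣ B := by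
    rw [h]; exact RatFunc.denom_div_dvd A B
  have hg0 : g ≠ 0 := by
    rintro rfl; simp [hB] at hg
  refine ⟨g, hg0, ?_, by rw [hg, mul_comm]⟩
  have h' : r.num * B = A * r.denom := (RatFunc.num_mul_eq_mul_denom_iff hB).mpr h
  have : r.denom * (A - g * r.num) = 0 := by
    rw [hg] at h'
    linear_combination -h'
  rcases mul_eq_zero.mp this with h0 | h0
  · exact absurd h0 r.denom_ne_zero
  · exact sub_eq_zero.mp h0

lemma rdeg_le_of_eq_div {r : RatFunc k} {A B : k[X]} (hB : B ≠ 0) (h : r = ι A / ι B) :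
    rdeg r ≤ max A.natDegree B.natDegree := by
  obtain ⟨g, hg0, hA, hB'⟩ := exists_factor_of_eq_div hB h
  refine max_le ?_ ?_
  · rcases eq_or_ne r.num 0 with h0 | h0
    · simp [h0]
    · exact le_trans (by rw [hA, natDegree_mul hg0 h0]; omega) (le_max_left _ _)
  · exact le_trans (by rw [hB', natDegree_mul hg0 r.denom_ne_zero]; omega) (le_max_right _ _)

lemma rdeg_eq_of_isCoprime {r : RatFunc k} {A B : k[X]} (hB : B ≠ 0) (hc : IsCoprime A B)
    (h : r = ι A / ι B) : rdeg r = max A.natDegree B.natDegree := by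
  obtain ⟨g, hg0, hA, hB'⟩ := exists_factor_of_eq_div hB h
  have hu : IsUnit g := hc.isUnit_of_dvd' ⟨_, hA⟩ ⟨_, hB'⟩
  have hg1 : g.natDegree = 0 := Polynomial.natDegree_eq_zero_of_isUnit hu
  have key : ∀ p : k[X], (g * p).natDegree = p.natDegree := by
    intro p
    rcases eq_or_ne p 0 with rfl | hp
    · simp
    · rw [natDegree_mul hg0 hp, hg1, zero_add]
  rw [rdeg, hA, hB', key, key]

@[simp] lemma rdeg_C (c : k) : rdeg (RatFunc.C c) = 0 := by
  rw [rdeg_eq_of_isCoprime (A := C c) (B := 1) one_ne_zero isCoprime_one_right (by simp)]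
  simp

lemma rdeg_X : rdeg (RatFunc.X : RatFunc k) = 1 := by
  rw [rdeg_eq_of_isCoprime (A := X) (B := 1) one_ne_zero isCoprime_one_right (by simp)]
  simp

lemma exists_eq_C_of_rdeg_eq_zero {r : RatFunc k} (h : rdeg r = 0) : ∃ c, r = RatFunc.C c := by
  have hn : r.num.natDegree = 0 := Nat.le_zero.mp (h ▸ le_max_left _ _)
  have hd : r.denom.natDegree = 0 := Nat.le_zero.mp (h ▸ le_max_right _ _)
  have hd1 : r.denom = 1 := (RatFunc.monic_denom r).natDegree_eq_zero.mp hd
  refine ⟨r.num.coeff 0, ?_⟩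
  conv_lhs => rw [← RatFunc.num_div_denom r, hd1, map_one, div_one,
    eq_C_of_natDegree_eq_zero hn, RatFunc.algebraMap_C]

lemma isCoprime_pair_span {u₁ v₁ u₂ v₂ : k[X]} (h₁ : IsCoprime u₁ v₁) (h₂ : IsCoprime u₂ v₂) :
    ∃ α β γ : k[X], α * (u₁ * u₂) + β * (v₁ * v₂) + γ * (u₁ * v₂ + u₂ * v₁) = 1 := by
  obtain ⟨a₁, b₁, e₁⟩ : IsCoprime (u₁ ^ 2) (v₁ ^ 2) := h₁.pow
  obtain ⟨a₂, b₂, e₂⟩ : IsCoprime (u₂ ^ 2) (v₂ ^ 2) := h₂.pow
  refine ⟨a₁ * a₂ * (u₁ * u₂) - a₁ * b₂ * (v₁ * v₂), b₁ * b₂ * (v₁ * v₂) - b₁ * a₂ * (u₁ * u₂),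
    a₁ * b₂ * (u₁ * v₂) + b₁ * a₂ * (u₂ * v₁), ?_⟩
  linear_combination (a₂ * u₂ ^ 2 + b₂ * v₂ ^ 2) * e₁ + e₂

/-- If `r₃ + r₄ = A / C` and `r₃ r₄ = B / C` then `rdeg r₃ + rdeg r₄` is at most the degree of the
triple `(A : B : C)`. -/
lemma rdeg_add_rdeg_le {r₃ r₄ : RatFunc k} {A B C : k[X]} (hC : C ≠ 0)
    (hA : r₃ + r₄ = ι A / ι C) (hB : r₃ * r₄ = ι B / ι C) :
    rdeg r₃ + rdeg r₄ ≤ max A.natDegree (max B.natDegree C.natDegree) := by
  set u₃ := r₃.num with hu₃
  set v₃ := r₃.denom with hv₃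
  set u₄ := r₄.num with hu₄
  set v₄ := r₄.denom with hv₄
  have hv30 : v₃ ≠ 0 := RatFunc.denom_ne_zero _
  have hv40 : v₄ ≠ 0 := RatFunc.denom_ne_zero _
  have hιC := iota_ne_zero hC
  have hι3 := iota_ne_zero hv30
  have hι4 := iota_ne_zero hv40
  have e3 : r₃ = ι u₃ / ι v₃ := (RatFunc.num_div_denom r₃).symm
  have e4 : r₄ = ι u₄ / ι v₄ := (RatFunc.num_div_denom r₄).symm
  have hA' : A * (v₃ * v₄) = (u₃ * v₄ + u₄ * v₃) * C := by
    apply RatFunc.algebraMap_injective k
    rw [e3, e4] at hA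
    field_simp at hA
    simp only [map_mul, map_add]
    linear_combination -hA
  have hB' : B * (v₃ * v₄) = (u₃ * u₄) * C := by
    apply RatFunc.algebraMap_injective k
    rw [e3, e4] at hB
    field_simp at hB
    simp only [map_mul]
    linear_combination -hB
  obtain ⟨α, β, γ, habc⟩ := isCoprime_pair_span (RatFunc.isCoprime_num_denom r₃)
    (RatFunc.isCoprime_num_denom r₄)
  rw [← hu₃, ← hu₄, ← hv₃, ← hv₄] at habc
  set g := α * B + β * C + γ * A with hg
  have hgC : C = g * (v₃ * v₄) := by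
    linear_combination (norm := ring_nf) -α * hB' - γ * hA' - C * habc - (v₃ * v₄) * hg
  have hgA : A = g * (u₃ * v₄ + u₄ * v₃) := by
    apply mul_right_cancel₀ (mul_ne_zero hv30 hv40)
    linear_combination (norm := ring_nf) hA' + (u₃ * v₄ + u₄ * v₃) * hgC
  have hgB : B = g * (u₃ * u₄) := by
    apply mul_right_cancel₀ (mul_ne_zero hv30 hv40)
    linear_combination (norm := ring_nf) hB' + (u₃ * u₄) * hgC
  have hg0 : g ≠ 0 := by
    intro h0; exact hC (by simp [hgC, h0])
  have hle : ∀ p : k[X], p ≠ 0 → p.natDegree ≤ (g * p).natDegree := fun p hp => by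
    rw [natDegree_mul hg0 hp]; omega
  show max u₃.natDegree v₃.natDegree + max u₄.natDegree v₄.natDegree ≤ _
  by_cases h3 : v₃.natDegree < u₃.natDegree
  · have hu30 : u₃ ≠ 0 := by intro h; simp [h] at h3
    by_cases h4 : v₄.natDegree < u₄.natDegree
    · have hu40 : u₄ ≠ 0 := by intro h; simp [h] at h4
      have hd : (u₃ * u₄).natDegree = u₃.natDegree + u₄.natDegree := natDegree_mul hu30 hu40
      have := hle _ (mul_ne_zero hu30 hu40)
      rw [← hgB] at this
      omega
    · have hd : (u₃ * v₄).natDegree = u₃.natDegree + v₄.natDegree := natDegree_mul hu30 hv40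
      have hlt : (u₄ * v₃).natDegree < (u₃ * v₄).natDegree :=
        lt_of_le_of_lt natDegree_mul_le (by omega)
      have hs := natDegree_add_eq_left_of_natDegree_lt hlt
      have hne : u₃ * v₄ + u₄ * v₃ ≠ 0 := by intro h; simp [h] at hs; omega
      have := hle _ hne
      rw [← hgA, hs] at this
      omega
  · by_cases h4 : v₄.natDegree < u₄.natDegree
    · have hu40 : u₄ ≠ 0 := by intro h; simp [h] at h4
      have hd : (u₄ * v₃).natDegree = u₄.natDegree + v₃.natDegree := natDegree_mul hu40 hv30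
      have hlt : (u₃ * v₄).natDegree < (u₄ * v₃).natDegree :=
        lt_of_le_of_lt natDegree_mul_le (by omega)
      have hs := natDegree_add_eq_right_of_natDegree_lt hlt
      have hne : u₃ * v₄ + u₄ * v₃ ≠ 0 := by intro h; simp [h] at hs; omega
      have := hle _ hne
      rw [← hgA, hs] at this
      omega
    · have hd : (v₃ * v₄).natDegree = v₃.natDegree + v₄.natDegree := natDegree_mul hv30 hv40
      have := hle _ (mul_ne_zero hv30 hv40)
      rw [← hgC] at this
      omega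

/-! ### Composition -/

/-- Homogenisation of `Φ` at degree `n`, evaluated at `(u : v)`. -/
def homEval (n : ℕ) (Φ u v : k[X]) : k[X] :=
  ∑ i ∈ Finset.range (n + 1), C (Φ.coeff i) * u ^ i * v ^ (n - i)

lemma iota_homEval {n : ℕ} {Φ u v : k[X]} (hΦ : Φ.natDegree ≤ n) (hv : v ≠ 0) :
    ι (homEval n Φ u v) = ι v ^ n * aeval (ι u / ι v) Φ := by
  rw [homEval, map_sum, aeval_eq_sum_range' (Nat.lt_succ_of_le hΦ), Finset.mul_sum]
  refine Finset.sum_congr rfl fun i hi => ?_
  have hi' : i ≤ n := Nat.lt_succ_iff.mp (Finset.mem_range.mp hi)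
  have := iota_ne_zero hv
  rw [map_mul, map_mul, map_pow, map_pow, RatFunc.algebraMap_C, Algebra.smul_def, div_pow,
    ← RatFunc.algebraMap_eq_C]
  obtain ⟨j, rfl⟩ := Nat.exists_eq_add_of_le hi'
  rw [Nat.add_sub_cancel_left, pow_add]
  field_simp

lemma isCoprime_homEval_of_natDegree_eq {n : ℕ} {Φ Ψ u v : k[X]} (hc : IsCoprime Φ Ψ)
    (hΦ : Φ.natDegree = n) (hΦ0 : Φ ≠ 0) (hΨ : Ψ.natDegree ≤ n) (huv : IsCoprime u v)
    (hv : v ≠ 0) : IsCoprime (homEval n Φ u v) (homEval n Ψ u v) := by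
  obtain ⟨a, b, hab⟩ := hc
  set m := max a.natDegree b.natDegree
  have hid : homEval m a u v * homEval n Φ u v + homEval m b u v * homEval n Ψ u v
      = v ^ (m + n) := by
    apply RatFunc.algebraMap_injective k
    rw [map_add, map_mul, map_mul, iota_homEval (le_max_left _ _) hv, iota_homEval hΦ.le hv,
      iota_homEval (le_max_right _ _) hv, iota_homEval hΨ hv, map_pow, pow_add]
    have := congr_arg (aeval (R := k) (ι u / ι v)) hab
    rw [map_add, map_mul, map_mul, map_one] at this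
    linear_combination (ι v ^ m * ι v ^ n) * this
  have h1 : IsCoprime (homEval n Φ u v) v := by
    have hlead : IsUnit (C (Φ.coeff n)) := by
      rw [isUnit_C, isUnit_iff_ne_zero, ← hΦ]
      exact leadingCoeff_ne_zero.mpr hΦ0
    have hdvd : v ∣ ∑ i ∈ Finset.range n, C (Φ.coeff i) * u ^ i * v ^ (n - i) :=
      Finset.dvd_sum fun i hi => dvd_mul_of_dvd_right (dvd_pow_self v
        (by have := Finset.mem_range.mp hi; omega)) _
    obtain ⟨w, hw⟩ := hdvd
    rw [homEval, Finset.sum_range_succ, hw, Nat.sub_self, pow_zero, mul_one, add_comm]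
    exact IsCoprime.add_mul_left_left ((isCoprime_mul_unit_left_left hlead _ _).mpr huv.pow_left) w
  obtain ⟨x, y, hxy⟩ := (h1.pow_right (n := m + n))
  refine ⟨x + y * homEval m a u v, y * homEval m b u v, ?_⟩
  linear_combination hxy + y * hid

lemma natDegree_homEval_le {n : ℕ} (Φ : k[X]) {u v : k[X]} {d : ℕ} (hu : u.natDegree ≤ d)
    (hv : v.natDegree ≤ d) : (homEval n Φ u v).natDegree ≤ n * d := by
  refine natDegree_sum_le_of_forall_le _ _ fun i hi => ?_
  have hi' : i ≤ n := Nat.lt_succ_iff.mp (Finset.mem_range.mp hi)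
  refine natDegree_mul_le.trans ?_
  refine le_trans (add_le_add ((natDegree_C_mul_le _ _).trans (natDegree_pow_le_of_le i hu))
    (natDegree_pow_le_of_le (n - i) hv)) ?_
  rw [← Nat.add_mul, Nat.add_sub_cancel' hi']

lemma coeff_homEval {n : ℕ} (Φ : k[X]) {u v : k[X]} {d : ℕ} (hu : u.natDegree ≤ d)
    (hv : v.natDegree ≤ d) : (homEval n Φ u v).coeff (n * d) =
      ∑ i ∈ Finset.range (n + 1), Φ.coeff i * u.coeff d ^ i * v.coeff d ^ (n - i) := by
  rw [homEval, finsetSum_coeff]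
  refine Finset.sum_congr rfl fun i hi => ?_
  have hi' : i ≤ n := Nat.lt_succ_iff.mp (Finset.mem_range.mp hi)
  have hsplit : n * d = i * d + (n - i) * d := by rw [← Nat.add_mul, Nat.add_sub_cancel' hi']
  rw [mul_assoc, coeff_C_mul, hsplit, coeff_mul_add_eq_of_natDegree_le (natDegree_pow_le_of_le i hu)
    (natDegree_pow_le_of_le (n - i) hv), coeff_pow_of_natDegree_le hu, coeff_pow_of_natDegree_le hv,
    mul_assoc]

lemma leading_ne_zero_or {n : ℕ} {Φ Ψ : k[X]} (hc : IsCoprime Φ Ψ) (hΦ : Φ.natDegree = n)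
    (hΦ0 : Φ ≠ 0) (hΨ : Ψ.natDegree ≤ n) {α β : k} (hαβ : α ≠ 0 ∨ β ≠ 0) :
    (∑ i ∈ Finset.range (n + 1), Φ.coeff i * α ^ i * β ^ (n - i)) ≠ 0 ∨
      (∑ i ∈ Finset.range (n + 1), Ψ.coeff i * α ^ i * β ^ (n - i)) ≠ 0 := by
  by_cases hβ : β = 0
  · left
    have hα : α ≠ 0 := hαβ.resolve_right (not_not.mpr hβ)
    rw [Finset.sum_eq_single_of_mem n (Finset.self_mem_range_succ n)]
    · rw [Nat.sub_self, pow_zero, mul_one]
      refine mul_ne_zero ?_ (pow_ne_zero _ hα)
      rw [← hΦ]; exact leadingCoeff_ne_zero.mpr hΦ0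
    · intro i hi hin
      have : n - i ≠ 0 := by have := Finset.mem_range.mp hi; omega
      simp [hβ, zero_pow this]
  · have key : ∀ P : k[X], P.natDegree ≤ n →
        (∑ i ∈ Finset.range (n + 1), P.coeff i * α ^ i * β ^ (n - i)) = β ^ n * P.eval (α / β) := by
      intro P hP
      rw [eval_eq_sum_range' (Nat.lt_succ_of_le hP), Finset.mul_sum]
      refine Finset.sum_congr rfl fun i hi => ?_
      have hi' : i ≤ n := Nat.lt_succ_iff.mp (Finset.mem_range.mp hi)
      obtain ⟨j, rfl⟩ := Nat.exists_eq_add_of_le hi'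
      rw [Nat.add_sub_cancel_left, pow_add, div_pow]
      field_simp
    rw [key Φ hΦ.le, key Ψ hΨ]
    obtain ⟨a, b, hab⟩ := hc
    by_contra hcon
    push Not at hcon
    have h1 := congr_arg (eval (α / β)) hab
    have hz1 := (mul_eq_zero.mp hcon.1).resolve_left (pow_ne_zero n hβ)
    have hz2 := (mul_eq_zero.mp hcon.2).resolve_left (pow_ne_zero n hβ)
    simp [hz1, hz2] at h1

/-- Composition lemma, asymmetric form. -/
lemma rdeg_homEval {n : ℕ} {Φ Ψ : k[X]} (hc : IsCoprime Φ Ψ) (hΦ : Φ.natDegree = n)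
    (hΦ0 : Φ ≠ 0) (hΨ : Ψ.natDegree ≤ n) (r : RatFunc k) :
    IsCoprime (homEval n Φ r.num r.denom) (homEval n Ψ r.num r.denom) ∧
      max (homEval n Φ r.num r.denom).natDegree (homEval n Ψ r.num r.denom).natDegree
        = n * rdeg r := by
  set u := r.num with hu
  set v := r.denom with hv
  have hud : u.natDegree ≤ rdeg r := le_max_left _ _
  have hvd : v.natDegree ≤ rdeg r := le_max_right _ _
  refine ⟨isCoprime_homEval_of_natDegree_eq hc hΦ hΦ0 hΨ (RatFunc.isCoprime_num_denom r)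
    r.denom_ne_zero, le_antisymm (max_le (natDegree_homEval_le Φ hud hvd)
    (natDegree_homEval_le Ψ hud hvd)) ?_⟩
  have hlead : u.coeff (rdeg r) ≠ 0 ∨ v.coeff (rdeg r) ≠ 0 := by
    rcases le_total u.natDegree v.natDegree with h | h
    · right
      rw [rdeg, ← hu, ← hv, max_eq_right h]
      exact leadingCoeff_ne_zero.mpr r.denom_ne_zero
    · rcases eq_or_ne u 0 with h0 | h0
      · right
        rw [rdeg, ← hu, ← hv, max_eq_left h]
        rw [h0] at h ⊢
        simp only [natDegree_zero, Nat.le_zero] at h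
        rw [natDegree_zero, ← h]
        exact leadingCoeff_ne_zero.mpr r.denom_ne_zero
      · left
        rw [rdeg, ← hu, ← hv, max_eq_left h]
        exact leadingCoeff_ne_zero.mpr h0
  rcases leading_ne_zero_or hc hΦ hΦ0 hΨ hlead with h | h
  · rw [← coeff_homEval Φ hud hvd] at h
    exact le_max_of_le_left (le_natDegree_of_ne_zero h)
  · rw [← coeff_homEval Ψ hud hvd] at h
    exact le_max_of_le_right (le_natDegree_of_ne_zero h)

/-- Composition lemma, symmetric form. -/
lemma rdeg_homEval' {Φ Ψ : k[X]} (hc : IsCoprime Φ Ψ) (r : RatFunc k) :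
    IsCoprime (homEval (max Φ.natDegree Ψ.natDegree) Φ r.num r.denom)
        (homEval (max Φ.natDegree Ψ.natDegree) Ψ r.num r.denom) ∧
      max (homEval (max Φ.natDegree Ψ.natDegree) Φ r.num r.denom).natDegree
          (homEval (max Φ.natDegree Ψ.natDegree) Ψ r.num r.denom).natDegree
        = max Φ.natDegree Ψ.natDegree * rdeg r := by
  rcases le_total Ψ.natDegree Φ.natDegree with h | h
  · rw [max_eq_left h]
    rcases eq_or_ne Φ 0 with h0 | h0
    · subst h0
      have hΨ : IsUnit Ψ := isCoprime_zero_left.mp hc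
      simp only [natDegree_zero, Nat.le_zero] at h
      obtain ⟨h1, h2⟩ := rdeg_homEval hc.symm h hΨ.ne_zero (by simp) r
      exact ⟨by simpa using h1.symm, by rw [natDegree_zero, max_comm, h2]⟩
    · exact rdeg_homEval hc rfl h0 h r
  · rw [max_eq_right h]
    rcases eq_or_ne Ψ 0 with h0 | h0
    · subst h0
      have hΦ : IsUnit Φ := isCoprime_zero_right.mp hc
      simp only [natDegree_zero, Nat.le_zero] at h
      obtain ⟨h1, h2⟩ := rdeg_homEval hc h hΦ.ne_zero (by simp) r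
      exact ⟨by simpa using h1, by rw [natDegree_zero, h2]⟩
    · obtain ⟨h1, h2⟩ := rdeg_homEval hc.symm rfl h0 h r
      exact ⟨h1.symm, by rw [max_comm, h2]⟩

/-- A root of a nonzero polynomial in `k(X)` is constant. -/
lemma rdeg_eq_zero_of_aeval_eq_zero {Ψ : k[X]} (hΨ : Ψ ≠ 0) {r : RatFunc k}
    (h : aeval r Ψ = 0) : rdeg r = 0 := by
  rcases Nat.eq_zero_or_pos Ψ.natDegree with hn | hn
  · rw [eq_C_of_natDegree_eq_zero hn, aeval_C, map_eq_zero] at h
    exact absurd (eq_C_of_natDegree_eq_zero hn) (by rw [h, map_zero]; exact hΨ)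
  · obtain ⟨h1, h2⟩ := rdeg_homEval (Ψ := 1) isCoprime_one_right rfl hΨ (by simp) r
    have hz : homEval Ψ.natDegree Ψ r.num r.denom = 0 := by
      apply RatFunc.algebraMap_injective k
      rw [iota_homEval le_rfl r.denom_ne_zero, RatFunc.num_div_denom, h, mul_zero, map_zero]
    rw [hz, isCoprime_zero_left] at h1
    rw [hz, natDegree_eq_zero_of_isUnit h1] at h2
    rcases Nat.eq_zero_or_pos (rdeg r) with h3 | h3
    · exact h3
    · have := Nat.mul_pos hn h3
      simp at h2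
      omega

/-- `deg ((Φ / Ψ) ∘ r) = deg (Φ / Ψ) * deg r`. -/
lemma rdeg_aeval_div {Φ Ψ : k[X]} (hc : IsCoprime Φ Ψ) (r : RatFunc k)
    (h : aeval r Ψ ≠ 0) :
    rdeg (aeval r Φ / aeval r Ψ) = max Φ.natDegree Ψ.natDegree * rdeg r := by
  obtain ⟨h1, h2⟩ := rdeg_homEval' hc r
  set n := max Φ.natDegree Ψ.natDegree
  have hv := r.denom_ne_zero
  have eΦ := iota_homEval (u := r.num) (le_max_left Φ.natDegree Ψ.natDegree) hv
  have eΨ := iota_homEval (u := r.num) (le_max_right Φ.natDegree Ψ.natDegree) hv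
  rw [RatFunc.num_div_denom] at eΦ eΨ
  rw [← h2]
  refine rdeg_eq_of_isCoprime ?_ h1 ?_
  · intro h0
    rw [h0, map_zero, eq_comm, mul_eq_zero] at eΨ
    rcases eΨ with h3 | h3
    · exact pow_ne_zero _ (iota_ne_zero hv) h3
    · exact h h3
  · rw [eΦ, eΨ, mul_div_mul_left _ _ (pow_ne_zero _ (iota_ne_zero hv))]

lemma rdeg_pow (r : RatFunc k) (n : ℕ) : rdeg (r ^ n) = n * rdeg r := by
  have h := rdeg_aeval_div (Φ := X ^ n) (Ψ := 1) isCoprime_one_right r (by simp)
  simpa using h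

lemma transcendental_of_rdeg_ne_zero {r : RatFunc k} (h : rdeg r ≠ 0) : Transcendental k r := by
  rintro ⟨p, hp, hpr⟩
  exact h (rdeg_eq_zero_of_aeval_eq_zero hp hpr)

end Fermat.Agent.ECFrob
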