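import Fermat.Agent.ECFrob.Trace
import Fermat.Agent.ECLocal.Main
import Fermat.Agent.Galois.Decomposition
import Fermat.Prelude.Def_FLTPrelim_Modularity

/-!
# Reduction of torsion at a good prime intertwines a Frobenius element with the Frobenius map
-/

set_option autoImplicit false

noncomputable section

open WeierstrassCurve WeierstrassCurve.Affine.Point
open scoped WeierstrassCurve.Affine Pointwise

namespace Fermat.Agent.ECFrob

local notation "Qb" => AlgebraicClosure ℚ

/-- Equal curves have the same points. -/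
def ptCast {F : Type*} [Field F] [DecidableEq F] {V₁ V₂ : WeierstrassCurve F} (h : V₁ = V₂) :
    V₁.toAffine.Point ≃+ V₂.toAffine.Point := by
  subst h; exact AddEquiv.refl _

lemma ptCast_some {F : Type*} [Field F] [DecidableEq F] {V₁ V₂ : WeierstrassCurve F} (h : V₁ = V₂)
    {x y : F} (hns : V₁.toAffine.Nonsingular x y) :
    ptCast h (Affine.Point.some x y hns) = Affine.Point.some x y (h ▸ hns) := by
  subst h; rfl

variable (W : WeierstrassCurve ℤ) {l : ℕ} (A : ValuationSubring Qb)

local notation "WQ" => W.map (Int.castRingHom ℚ)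
local notation "κ" => IsLocalRing.ResidueField A

instance instDecEqResidueField : DecidableEq (IsLocalRing.ResidueField A) := Classical.decEq _

lemma isElliptic_reductionMod [Fact l.Prime] (hgood : W.IsGoodPrimeFor l) :
    (W.reductionMod l).IsElliptic := by
  refine ⟨IsUnit.mk0 _ ?_⟩
  rw [WeierstrassCurve.reductionMod, WeierstrassCurve.map_Δ, eq_intCast]
  intro h
  exact hgood ((ZMod.intCast_zmod_eq_zero_iff_dvd _ _).mp h)

/-- The algebra structure of the residue field over `𝔽_l`. -/
abbrev residueAlgebra [Fact l.Prime] (hA : A.LiesOverPrime l) : Algebra (ZMod l) κ :=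
  haveI := Galois.place_charP_residueField hA Fact.out
  ZMod.algebra κ l

lemma redCurve_eq [Fact l.Prime] [Algebra (ZMod l) κ]
    (hV : ECLocal.IntegralAt A (WQ⁄Qb)) :
    ECLocal.redCurve hV = (W.reductionMod l)⁄κ := by
  have key : ∀ (z : ℤ) (w : Qb) (hw : w ∈ A), w = algebraMap ℚ Qb (z : ℚ) →
      IsLocalRing.residue A ⟨w, hw⟩ = algebraMap (ZMod l) κ (z : ZMod l) := by
    intro z w hw e
    rw [map_intCast, show (⟨w, hw⟩ : A) = (z : A) from Subtype.ext (by simp [e]), map_intCast]
  ext <;> simp only [ECLocal.redCurve, WeierstrassCurve.baseChange, WeierstrassCurve.reductionMod,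
    WeierstrassCurve.map_a₁, WeierstrassCurve.map_a₂, WeierstrassCurve.map_a₃,
    WeierstrassCurve.map_a₄, WeierstrassCurve.map_a₆, eq_intCast] <;>
    exact key _ _ _ rfl

/-- Reduction of points at a good prime, into the reduced curve over `𝔽_l`. -/
def redHom [Fact l.Prime] [Algebra (ZMod l) κ] (hV : ECLocal.GoodAt A (WQ⁄Qb)) :
    (WQ⁄Qb).Point →+ ((W.reductionMod l)⁄κ).Point :=
  (ptCast (redCurve_eq W A hV.toIntegralAt)).toAddMonoidHom.comp
    (AddMonoidHom.mk' (ECLocal.redPoint hV.toIntegralAt) (ECLocal.redPoint_add_of_good hV))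

lemma redHom_some_of_notMem [Fact l.Prime] [Algebra (ZMod l) κ]
    (hV : ECLocal.GoodAt A (WQ⁄Qb)) {x y : Qb} (h : (WQ⁄Qb).Nonsingular x y) (hx : x ∉ A) :
    redHom (l := l) W A hV (Affine.Point.some x y h) = 0 := by
  have : ECLocal.redPoint hV.toIntegralAt (Affine.Point.some x y h) = 0 := by
    simp only [ECLocal.redPoint]
    exact dif_neg fun hc => hx hc.1
  show ptCast (redCurve_eq (l := l) W A hV.toIntegralAt)
    (ECLocal.redPoint hV.toIntegralAt (Affine.Point.some x y h)) = 0
  rw [this, _root_.map_zero]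

lemma redHom_some_of_mem [Fact l.Prime] [Algebra (ZMod l) κ]
    (hV : ECLocal.GoodAt A (WQ⁄Qb)) {x y : Qb} (h : (WQ⁄Qb).Nonsingular x y)
    (hx : x ∈ A) (hy : y ∈ A) :
    ∃ hns, redHom (l := l) W A hV (Affine.Point.some x y h) =
      Affine.Point.some (IsLocalRing.residue A ⟨x, hx⟩) (IsLocalRing.residue A ⟨y, hy⟩) hns := by
  set V := (WQ⁄Qb)
  set hi := hV.toIntegralAt
  have hns0 : (ECLocal.redCurve hi).toAffine.Nonsingular
      (IsLocalRing.residue A ⟨x, hx⟩) (IsLocalRing.residue A ⟨y, hy⟩) := by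
    let V₀ : WeierstrassCurve A := ⟨⟨V.a₁, hi.a₁_mem⟩, ⟨V.a₂, hi.a₂_mem⟩, ⟨V.a₃, hi.a₃_mem⟩,
      ⟨V.a₄, hi.a₄_mem⟩, ⟨V.a₆, hi.a₆_mem⟩⟩
    have hred : ECLocal.redCurve hi = V₀.map (IsLocalRing.residue A) := rfl
    have hV0 : V₀.map A.subtype = V := rfl
    have heq : V₀.toAffine.Equation ⟨x, hx⟩ ⟨y, hy⟩ := by
      rw [Affine.equation_iff]
      apply Subtype.ext
      push_cast
      exact (Affine.equation_iff _ _).mp h.1
    have hΔ : V₀.Δ ∉ IsLocalRing.maximalIdeal A := by
      rw [A.valuation_lt_one_iff, show ((V₀.Δ : A) : Qb) = V.Δ by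
        rw [← hV0, WeierstrassCurve.map_Δ]; rfl, hV.valuation_Δ]
      exact lt_irrefl 1
    refine (Affine.equation_iff_nonsingular_of_Δ_ne_zero ?_).mp ?_
    · rw [hred, WeierstrassCurve.map_Δ]
      exact fun h0 => hΔ ((IsLocalRing.residue_eq_zero_iff _).mp h0)
    · rw [hred]
      exact heq.map _
  refine ⟨redCurve_eq (l := l) W A hi ▸ hns0, ?_⟩
  have : ECLocal.redPoint hi (Affine.Point.some x y h) = Affine.Point.some _ _ hns0 := by
    simp only [ECLocal.redPoint]
    exact dif_pos ⟨hx, hy, hns0⟩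
  show ptCast (redCurve_eq (l := l) W A hi) (ECLocal.redPoint hi (Affine.Point.some x y h)) = _
  rw [this, ptCast_some]

/-- Reduction intertwines a Frobenius element and the Frobenius map. -/
lemma redHom_smul [Fact l.Prime] [Algebra (ZMod l) κ] (hV : ECLocal.GoodAt A (WQ⁄Qb))
    {σ : Qb ≃ₐ[ℚ] Qb} (hσ : A.IsFrobeniusAt σ l) (P : (WQ⁄Qb).Point) :
    redHom (l := l) W A hV (σ • P) = frobPt (W.reductionMod l) (redHom (l := l) W A hV P) := by
  obtain ⟨hdec, hfr⟩ := Galois.isFrobeniusAt_iff.mp hσ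
  match P with
  | 0 =>
    rw [show σ • (0 : (WQ⁄Qb).Point) = 0 from rfl, _root_.map_zero, _root_.map_zero]
  | .some x y h =>
    rw [algEquiv_smul_def, Affine.Point.map_some]
    simp only [AlgEquiv.coe_toAlgHom]
    have hmem : ∀ z : Qb, σ z ∈ A ↔ z ∈ A := fun z => by
      have h1 := MulAction.mem_stabilizer_iff.mp hdec
      conv_lhs => rw [← h1]
      exact ValuationSubring.smul_mem_pointwise_smul_iff
    by_cases hx : x ∈ A
    · have hy : y ∈ A := by
        rcases ECLocal.nonsingRed_of_good hV (Affine.Point.some x y h) with h' | ⟨-, h', -⟩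
        · exact absurd hx h'
        · exact h'
      have hres : ∀ (z : Qb) (hz : z ∈ A),
          IsLocalRing.residue A ⟨σ z, (hmem z).mpr hz⟩ = IsLocalRing.residue A ⟨z, hz⟩ ^ l := by
        intro z hz
        rw [← map_pow, ← sub_eq_zero, ← map_sub, IsLocalRing.residue_eq_zero_iff]
        exact ValuationSubring.coe_mem_nonunits_iff.mp (hfr z hz)
      obtain ⟨hns, e⟩ := redHom_some_of_mem (l := l) W A hV h hx hy
      obtain ⟨hns', e'⟩ := redHom_some_of_mem (l := l) W A hV
        ((Affine.baseChange_nonsingular (W := (WQ)) (f := σ.toAlgHom) σ.toAlgHom.injective x y).mpr h)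
        ((hmem x).mpr hx) ((hmem y).mpr hy)
      obtain ⟨hF, eF⟩ := frobPt_some (W.reductionMod l) hns
      refine e'.trans ?_
      rw [e, eF]
      simp only [Affine.Point.some.injEq, Nat.card_zmod]
      exact ⟨hres x hx, hres y hy⟩
    · rw [redHom_some_of_notMem (l := l) W A hV h hx, _root_.map_zero]
      exact redHom_some_of_notMem (l := l) W A hV _ (fun h' => hx ((hmem x).mp h'))

/-- Reduction is injective on torsion of order prime to `l`. -/
lemma redHom_injective_of_torsion [Fact l.Prime] [Algebra (ZMod l) κ]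
    (hV : ECLocal.GoodAt A (WQ⁄Qb)) (hA : A.LiesOverPrime l) {n : ℕ} (hn : ¬ l ∣ n)
    {P : (WQ⁄Qb).Point} (hP : n • P = 0) (h0 : redHom (l := l) W A hV P = 0) : P = 0 := by
  refine ECLocal.redPoint_eq_zero_imp_of_good hV
    (ECLocal.valuation_natCast_eq_one Fact.out hn A hA) hP ?_
  exact (ptCast (redCurve_eq (l := l) W A hV.toIntegralAt)).injective (h0.trans (_root_.map_zero _).symm)

end Fermat.Agent.ECFrob
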