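import Fermat.Agent.ECFrob.Endo
import Fermat.Agent.ECTorsion.Galois
import Mathlib.LinearAlgebra.Trace
import Mathlib.LinearAlgebra.Determinant

/-!
# Trace and determinant of Frobenius on `E[p]` over a finite field
-/

set_option autoImplicit false

noncomputable section

open WeierstrassCurve WeierstrassCurve.Affine.Point
open scoped WeierstrassCurve.Affine

namespace Fermat.Agent.ECFrob

section LinearAlgebra

variable {L V : Type*} [Field L] [AddCommGroup V] [Module L V]

lemma quadratic_trace_det (hV : Module.finrank L V = 2) (f : Module.End L V) (v : V) :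
    f (f v) - LinearMap.trace L V f • f v + LinearMap.det f • v = 0 := by
  have : Module.Finite L V := Module.finite_of_finrank_eq_succ hV
  let b : Module.Basis (Fin 2) L V := Module.finBasisOfFinrankEq L V hV
  suffices f * f - LinearMap.trace L V f • f + LinearMap.det f • 1 = 0 by
    simpa using DFunLike.congr_fun this v
  apply (LinearMap.toMatrixAlgEquiv b).injective
  rw [map_add, map_sub, map_mul, map_smul, map_smul, map_one, _root_.map_zero,
    LinearMap.trace_eq_matrix_trace L b, ← LinearMap.det_toMatrix b]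
  set M := LinearMap.toMatrix b b f
  rw [show LinearMap.toMatrixAlgEquiv b f = M from rfl]
  ext i j
  fin_cases i <;> fin_cases j <;>
    simp [Matrix.mul_apply, Matrix.trace_fin_two, Matrix.det_fin_two, Fin.sum_univ_two] <;> ring

/-- An endomorphism of a plane killed by `X² - a X + q` has trace `a` and determinant `q`, unless it
is a scalar `c` with `2c ≠ a`. -/
lemma trace_det_of_quadratic (hV : Module.finrank L V = 2) (f : Module.End L V) (a q : L)
    (h : ∀ v, f (f v) - a • f v + q • v = 0)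
    (hsc : ∀ c : L, (∀ v, f v = c • v) → 2 * c = a) :
    LinearMap.trace L V f = a ∧ LinearMap.det f = q := by
  have : Nontrivial V := Module.nontrivial_of_finrank_eq_succ hV
  have : Module.Finite L V := Module.finite_of_finrank_eq_succ hV
  obtain ⟨v₀, hv₀⟩ := exists_ne (0 : V)
  have hkey : ∀ v, (LinearMap.trace L V f - a) • f v = (LinearMap.det f - q) • v := by
    intro v
    have h1 := quadratic_trace_det hV f v
    have h2 := h v
    rw [sub_smul, sub_smul, sub_eq_sub_iff_sub_eq_sub, ← sub_eq_zero]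
    linear_combination (norm := abel) h2 - h1
  have hscalar : ∀ c : L, (∀ v, f v = c • v) →
      LinearMap.trace L V f = a ∧ LinearMap.det f = q := by
    intro c hc
    have hf : f = c • (1 : Module.End L V) := LinearMap.ext fun v => by simp [hc]
    have ha := hsc c hc
    have ht : LinearMap.trace L V f = a := by
      rw [hf, map_smul, LinearMap.trace_one, hV, ← ha, smul_eq_mul]; push_cast; ring
    have hdet : LinearMap.det f = c ^ 2 := by
      rw [hf, LinearMap.det_smul, hV, map_one, mul_one]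
    refine ⟨ht, ?_⟩
    have h2 := h v₀
    simp only [hc, smul_smul, ← sub_smul, ← add_smul, smul_eq_zero, or_iff_left hv₀] at h2
    rw [hdet]
    linear_combination -h2 + c * ha
  by_cases ht : LinearMap.trace L V f = a
  · refine ⟨ht, ?_⟩
    have h1 := hkey v₀
    rw [ht, sub_self, zero_smul, eq_comm, smul_eq_zero, or_iff_left hv₀, sub_eq_zero] at h1
    exact h1
  · refine hscalar ((LinearMap.trace L V f - a)⁻¹ * (LinearMap.det f - q)) fun v => ?_
    rw [mul_smul, ← hkey, inv_smul_smul₀ (sub_ne_zero.mpr ht)]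

end LinearAlgebra

section Finite

variable {k : Type*} [Field k] [Finite k] (W : WeierstrassCurve k) [W.IsElliptic]
variable {Ω : Type*} [Field Ω] [Algebra k Ω] [DecidableEq Ω]

local notation "qk" => Nat.card k

/-- Frobenius on `E[n]`. -/
def frobTorsion (n : ℕ) : Module.End (ZMod n) (Submodule.torsionBy ℤ (W⁄Ω).Point n) :=
  AddMonoidHom.toZModLinearMap n
    { toFun := fun P => ⟨frobPt W P.1, by
        have := (Submodule.mem_torsionBy_iff _ _).mp P.2
        rw [Submodule.mem_torsionBy_iff, ← map_zsmul, this, _root_.map_zero]⟩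
      map_zero' := Subtype.ext (_root_.map_zero (frobPt W))
      map_add' := fun P Q => Subtype.ext (map_add (frobPt W) P.1 Q.1) }

omit [W.IsElliptic] in
lemma frobTorsion_apply (n : ℕ) (P : Submodule.torsionBy ℤ (W⁄Ω).Point n) :
    (frobTorsion W n P).1 = frobPt W P.1 := rfl

omit [Finite k] [W.IsElliptic] in
lemma coe_intCast_smul (n : ℕ) (z : ℤ) (P : Submodule.torsionBy ℤ (W⁄Ω).Point n) :
    (((z : ZMod n) • P : Submodule.torsionBy ℤ (W⁄Ω).Point n) : (W⁄Ω).Point) = z • P.1 := by
  rw [Int.cast_smul_eq_zsmul]; rfl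

/-- The characteristic equation on `E[n]`. -/
lemma frobTorsion_relation (n : ℕ) (P : Submodule.torsionBy ℤ (W⁄Ω).Point n) :
    frobTorsion W n (frobTorsion W n P) - (aFrob W : ZMod n) • frobTorsion W n P
      + (qk : ZMod n) • P = 0 := by
  apply Subtype.ext
  rw [← Int.cast_natCast (R := ZMod n) qk, Submodule.coe_add, Submodule.coe_sub,
    coe_intCast_smul, coe_intCast_smul, frobTorsion_apply, frobTorsion_apply,
    Submodule.coe_zero]
  exact frobPt_relation W P.1

/-- A lift of a root of `X² - a X + q` mod `p` to a root mod `p ^ (j+1)`. -/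
lemma exists_root_mod_pow {p : ℕ} (hp : p.Prime) (a q c : ℤ)
    (hc : (p : ℤ) ∣ c ^ 2 - a * c + q) (hsimple : ¬ (p : ℤ) ∣ 2 * c - a) (j : ℕ) :
    ∃ d : ℤ, (p : ℤ) ∣ d - c ∧ (p : ℤ) ^ (j + 1) ∣ d ^ 2 - a * d + q := by
  induction j with
  | zero => exact ⟨c, by simp, by simpa using hc⟩
  | succ j ih =>
    obtain ⟨d, hdc, e, he⟩ := ih
    have hd : ¬ (p : ℤ) ∣ 2 * d - a := fun h => hsimple (by
      have := dvd_sub h (hdc.mul_left 2)
      rwa [show 2 * d - a - 2 * (d - c) = 2 * c - a by ring] at this)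
    obtain ⟨u, v, huv⟩ := (Nat.prime_iff_prime_int.mp hp).coprime_iff_not_dvd.mpr hd
    refine ⟨d - v * e * (p : ℤ) ^ (j + 1), ?_, ?_⟩
    · rw [sub_right_comm]
      exact dvd_sub hdc ((dvd_pow_self (p : ℤ) j.succ_ne_zero).mul_left _)
    · refine ⟨e * u + v ^ 2 * e ^ 2 * (p : ℤ) ^ j, ?_⟩
      linear_combination he - (p : ℤ) ^ (j + 1) * e * huv

/-- If Frobenius is a scalar `c` on `E[p]` then `a = 2c` mod `p`. -/
lemma two_mul_eq_aFrob_of_scalar [IsAlgClosed Ω] {p : ℕ} (hp : p.Prime) (hpΩ : (p : Ω) ≠ 0)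
    (c : ℤ) (hc : ∀ T : (W⁄Ω).Point, p • T = 0 → frobPt W T = c • T) :
    (p : ℤ) ∣ 2 * c - aFrob W := by
  set a := aFrob W with ha
  set q : ℤ := (qk : ℤ)
  by_contra hsimple
  have hΔ : algebraMap k Ω W.Δ ≠ 0 := (_root_.map_ne_zero _).mpr W.isUnit_Δ.ne_zero
  -- `c` is a root mod `p`
  have hroot : (p : ℤ) ∣ c ^ 2 - a * c + q := by
    have hcard := ECTorsion.natCard_torsionBy_baseChange (W := W) (K := Ω) hΔ hpΩ
    have : Finite (Submodule.torsionBy ℤ (W⁄Ω).Point p) := Nat.finite_of_card_ne_zero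
      (by rw [hcard]; exact pow_ne_zero 2 hp.ne_zero)
    have : Nontrivial (Submodule.torsionBy ℤ (W⁄Ω).Point p) := by
      rw [← Finite.one_lt_card_iff_nontrivial, hcard]
      nlinarith [hp.two_le]
    obtain ⟨T, hT⟩ := exists_ne (0 : Submodule.torsionBy ℤ (W⁄Ω).Point p)
    have hpT : (p : ℤ) • T.1 = 0 := (Submodule.mem_torsionBy_iff _ _).mp T.2
    have hFT : frobPt W T.1 = c • T.1 := hc _ (by rw [← natCast_zsmul]; exact hpT)
    have h := frobPt_relation W T.1
    rw [hFT, map_zsmul, hFT, ← mul_zsmul, ← mul_zsmul, ← sub_smul, ← add_smul,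
      show c * c - a * c + q = c ^ 2 - a * c + q by ring] at h
    by_contra hnd
    obtain ⟨u, v, huv⟩ := (Nat.prime_iff_prime_int.mp hp).coprime_iff_not_dvd.mpr hnd
    apply hT
    apply Subtype.ext
    have := congr_arg (· • T.1) huv
    simp only [add_smul, mul_zsmul, one_smul, hpT, h, smul_zero, add_zero] at this
    exact this.symm
  -- `a² < 4q`
  have hlt : a ^ 2 < 4 * q := by
    refine lt_of_le_of_ne (aFrob_sq_le W) fun heq => hsimple ?_
    have h2 : (p : ℤ) ∣ (2 * c - a) ^ 2 := by
      rw [show (2 * c - a) ^ 2 = 4 * (c ^ 2 - a * c + q) + (a ^ 2 - 4 * q) by ring, heq, sub_self,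
        add_zero]
      exact hroot.mul_left 4
    exact (Nat.prime_iff_prime_int.mp hp).dvd_of_dvd_pow h2
  -- choose a large power of `p`
  obtain ⟨j, hj⟩ : ∃ j : ℕ, |a| + 2 * q + 2 < (p : ℤ) ^ (j + 1) := by
    obtain ⟨j, hj⟩ := exists_nat_gt (|a| + 2 * q + 2)
    refine ⟨j, hj.trans ?_⟩
    exact_mod_cast (Nat.lt_pow_self hp.one_lt).trans (Nat.pow_lt_pow_right hp.one_lt j.lt_succ_self)
  obtain ⟨d₀, hd₀c, hd₀⟩ := exists_root_mod_pow hp a q c hroot hsimple j
  set N : ℕ := p ^ (j + 1) with hN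
  have hN0 : 0 < N := pow_pos hp.pos _
  set d := Int.bmod d₀ N with hd
  have hdd : (N : ℤ) ∣ d - d₀ := Int.modEq_iff_dvd.mp Int.bmod_emod.symm
  have hdroot : (N : ℤ) ∣ d ^ 2 - a * d + q := by
    rw [show d ^ 2 - a * d + q = (d - d₀) * (d + d₀ - a) + (d₀ ^ 2 - a * d₀ + q) by ring]
    exact dvd_add (hdd.mul_right _) (by rw [hN]; exact_mod_cast hd₀)
  have hdc : (p : ℤ) ∣ d - c := by
    have h1 : (p : ℤ) ∣ d - d₀ := dvd_trans (by
      rw [hN]; exact_mod_cast dvd_pow_self p j.succ_ne_zero) hdd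
    have := dvd_add h1 hd₀c
    rwa [show d - d₀ + (d₀ - c) = d - c by ring] at this
  have habs : 2 * |d| ≤ N := by
    have h1 : -((N / 2 : ℕ) : ℤ) ≤ d := by exact_mod_cast Int.le_bmod hN0
    have h2 : d < ((N + 1) / 2 : ℕ) := by exact_mod_cast Int.bmod_lt hN0
    rcases abs_cases d with ⟨e, _⟩ | ⟨e, _⟩ <;> omega
  -- the degree of `F - d` is positive
  have hpos : 0 < degForm W (-d) 1 := by
    rw [degForm]
    nlinarith [sq_nonneg (2 * d - a)]
  -- `F = d` on `E[N]`
  have hkill : ∀ T : (W⁄Ω).Point, N • T = 0 → (-d) • T + (1 : ℤ) • frobPt W T = 0 := by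
    intro T hT
    have hprod : ∀ S : (W⁄Ω).Point, N • S = 0 →
        frobPt W (frobPt W S - d • S) - (a - d) • (frobPt W S - d • S) = 0 := by
      intro S hS
      obtain ⟨e, he⟩ := hdroot
      have h := frobPt_relation W S
      rw [← ha] at h
      have h0 : (d ^ 2 - a * d + q) • S = 0 := by
        rw [he, mul_comm, mul_zsmul, natCast_zsmul, hS, smul_zero]
      calc _ = (frobPt W (frobPt W S) - a • frobPt W S + q • S) - (d ^ 2 - a * d + q) • S := by
            simp only [map_sub, map_zsmul, smul_sub, add_smul, sub_smul, ← mul_zsmul,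
              pow_two]
            abel
        _ = 0 := by rw [h, h0, sub_zero]
    -- `F - (a - d)` is injective on `p`-power torsion
    have hinj : ∀ i : ℕ, ∀ S : (W⁄Ω).Point, (p ^ i) • S = 0 →
        frobPt W S - (a - d) • S = 0 → S = 0 := by
      intro i
      induction i with
      | zero => intro S hS _; simpa using hS
      | succ i ih =>
        intro S hS hS'
        have h1 : p • S = 0 := ih _ (by rw [← mul_nsmul', ← pow_succ]; exact hS) (by
          rw [map_nsmul, smul_comm, ← nsmul_sub, hS', nsmul_zero])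
        have h2 : (c - (a - d)) • S = 0 := by rw [sub_smul, ← hc S h1]; exact hS'
        have h3 : ¬ (p : ℤ) ∣ c - (a - d) := fun hdiv => hsimple (by
          have := dvd_sub hdiv hdc
          rwa [show c - (a - d) - (d - c) = 2 * c - a by ring] at this)
        obtain ⟨u, v, huv⟩ := (Nat.prime_iff_prime_int.mp hp).coprime_iff_not_dvd.mpr h3
        have := congr_arg (· • S) huv
        simp only [add_smul, mul_zsmul, one_smul, natCast_zsmul, h1, h2, smul_zero,
          add_zero] at this
        exact this.symm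
    have := hinj (j + 1) (frobPt W T - d • T)
      (by rw [← hN, nsmul_sub, ← map_nsmul, hT, _root_.map_zero, smul_comm, hT, smul_zero, sub_zero])
      (hprod T hT)
    rw [neg_smul, one_smul, neg_add_eq_sub]
    exact this
  -- count
  have hNΩ : (N : Ω) ≠ 0 := by rw [hN, Nat.cast_pow]; exact pow_ne_zero _ hpΩ
  have hcard := ECTorsion.natCard_torsionBy_baseChange (W := W) (K := Ω) hΔ hNΩ
  have : Finite (Submodule.torsionBy ℤ (W⁄Ω).Point N) := Nat.finite_of_card_ne_zero
    (by rw [hcard]; positivity)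
  classical
  have := Fintype.ofFinite (Submodule.torsionBy ℤ (W⁄Ω).Point N)
  have hle := card_le_degForm W (-d) 1 hpos.ne'
    ((Finset.univ : Finset (Submodule.torsionBy ℤ (W⁄Ω).Point N)).map ⟨Subtype.val,
      Subtype.val_injective⟩) (by
      intro T hT
      simp only [Finset.mem_map, Finset.mem_univ, true_and, Function.Embedding.coeFn_mk] at hT
      obtain ⟨T', rfl⟩ := hT
      refine hkill _ ?_
      rw [← natCast_zsmul]
      exact (Submodule.mem_torsionBy_iff _ _).mp T'.2)
  rw [Finset.card_map, Finset.card_univ, ← Nat.card_eq_fintype_card, hcard, degForm,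
    ← ha] at hle
  have hq : (0 : ℤ) ≤ q := by positivity
  have hNbig : |a| + 2 * q + 2 < (N : ℤ) := by rw [hN]; exact_mod_cast hj
  push_cast at hle
  change (N : ℤ) ^ 2 ≤ (-d) ^ 2 + a * -d * 1 + q * 1 ^ 2 at hle
  nlinarith [le_abs_self (a * -d), abs_mul a (-d), abs_neg d, sq_abs d, abs_nonneg a,
    abs_nonneg d]

/-- **Trace and determinant of Frobenius on `E[p]`.** -/
theorem trace_det_frobTorsion [IsAlgClosed Ω] {p : ℕ} [Fact p.Prime] (hpΩ : (p : Ω) ≠ 0) :
    LinearMap.trace (ZMod p) _ (frobTorsion W (Ω := Ω) p) = (aFrob W : ZMod p) ∧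
      LinearMap.det (frobTorsion W (Ω := Ω) p) = (qk : ZMod p) := by
  have hΔ : algebraMap k Ω W.Δ ≠ 0 := (_root_.map_ne_zero _).mpr W.isUnit_Δ.ne_zero
  refine trace_det_of_quadratic (ECTorsion.finrank_torsionBy_baseChange (W := W) hΔ hpΩ) _ _ _
    (frobTorsion_relation W p) fun c hc => ?_
  obtain ⟨z, rfl⟩ := ZMod.intCast_surjective c
  have h := two_mul_eq_aFrob_of_scalar W Fact.out hpΩ z fun T hT => by
    have := congr_arg Subtype.val (hc ⟨T, by
      rw [Submodule.mem_torsionBy_iff, natCast_zsmul, hT]⟩)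
    rwa [frobTorsion_apply, coe_intCast_smul] at this
  rw [← ZMod.intCast_zmod_eq_zero_iff_dvd] at h
  push_cast at h
  exact sub_eq_zero.mp h

end Finite

end Fermat.Agent.ECFrob
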